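import Fermat.Agent.Grp.Cocycle

/-!
# From edge data to `Hom_cl(Γ, A)`

The map from edge data is onto `Hom_cl(Γ, A)`, with kernel the coboundaries of `R`-invariant
functions.
-/

namespace Fermat.Agent.Grp

open scoped MatrixGroups
open ModularGroup

variable {Γ : Subgroup SL(2, ℤ)} {A : Type*} [AddCommGroup A]

/-- The base coset. -/
def baseCoset (Γ : Subgroup SL(2, ℤ)) : SL(2, ℤ) ⧸ Γ := ((1 : SL(2, ℤ)) : SL(2, ℤ) ⧸ Γ)

theorem smul_baseCoset_eq (g : SL(2, ℤ)) :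
    g • baseCoset Γ = baseCoset Γ ↔ g ∈ Γ := by
  rw [baseCoset, MulAction.Quotient.smul_coe, smul_eq_mul, mul_one, QuotientGroup.eq, mul_one,
    inv_mem_iff]

theorem smul_baseCoset (g : SL(2, ℤ)) :
    g • baseCoset Γ = (g : SL(2, ℤ) ⧸ Γ) := by
  rw [baseCoset, MulAction.Quotient.smul_coe, smul_eq_mul, mul_one]

theorem out_smul_baseCoset (x : SL(2, ℤ) ⧸ Γ) : x.out • baseCoset Γ = x := by
  rw [smul_baseCoset]; exact QuotientGroup.out_eq' x

variable (hneg : (-1 : SL(2, ℤ)) ∈ Γ)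

/-- The normalised cocycle with values `a` at `S`. -/
noncomputable def cocOf (a : (SL(2, ℤ) ⧸ Γ) → A) (ha : ∀ x, a (S • x) = -a x) :
    SL(2, ℤ) → (SL(2, ℤ) ⧸ Γ) → A :=
  (exists_coc hneg a ha).choose

theorem cocOf_spec (a : (SL(2, ℤ) ⧸ Γ) → A) (ha : ∀ x, a (S • x) = -a x) :
    IsCoc (cocOf hneg a ha) ∧ (∀ x, cocOf hneg a ha S x = a x) ∧
      ∀ x, cocOf hneg a ha R x = 0 :=
  (exists_coc hneg a ha).choose_spec

theorem cocOf_eq {c : SL(2, ℤ) → (SL(2, ℤ) ⧸ Γ) → A} (hc : IsCoc c) (a : (SL(2, ℤ) ⧸ Γ) → A)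
    (ha : ∀ x, a (S • x) = -a x) (hS : ∀ x, c S x = a x) (hR : ∀ x, c R x = 0) :
    cocOf hneg a ha = c := by
  obtain ⟨h1, h2, h3⟩ := cocOf_spec hneg a ha
  exact h1.ext hc (fun x => by rw [h2, hS]) (fun x => by rw [h3, hR])

/-- A cocycle restricted to the stabiliser of the base coset. -/
def cocHom (c : SL(2, ℤ) → (SL(2, ℤ) ⧸ Γ) → A) (hc : IsCoc c) : Additive Γ →+ A where
  toFun γ := c ((Additive.toMul γ : Γ) : SL(2, ℤ)) (baseCoset Γ)
  map_zero' := hc.one _
  map_add' γ δ := by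
    rw [toMul_add, Subgroup.coe_mul, hc, (smul_baseCoset_eq _).mpr (Additive.toMul δ).2]

variable (k : Type*) [Semiring k] [Module k A] [Γ.FiniteIndex]

/-- Edge data ↦ homomorphism. -/
noncomputable def edgeToHom : edgeSpace k Γ A →ₗ[k] (Additive Γ →+ A) where
  toFun a := cocHom (cocOf hneg a.1 (fun x => (a.2.1 x).1)) (cocOf_spec hneg _ _).1
  map_add' a b := by
    obtain ⟨ha1, ha2, ha3⟩ := cocOf_spec hneg a.1 (fun x => (a.2.1 x).1)
    obtain ⟨hb1, hb2, hb3⟩ := cocOf_spec hneg b.1 (fun x => (b.2.1 x).1)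
    refine AddMonoidHom.ext fun γ => ?_
    have := cocOf_eq hneg (ha1.add hb1) (a + b : edgeSpace k Γ A).1
      (fun x => ((a + b).2.1 x).1) (fun x => by simp [ha2, hb2]) (fun x => by simp [ha3, hb3])
    simp only [cocHom, AddMonoidHom.coe_mk, ZeroHom.coe_mk, AddMonoidHom.add_apply, this,
      Pi.add_apply]
  map_smul' t a := by
    obtain ⟨ha1, ha2, ha3⟩ := cocOf_spec hneg a.1 (fun x => (a.2.1 x).1)
    refine AddMonoidHom.ext fun γ => ?_
    have := cocOf_eq hneg (ha1.smul t) (t • a : edgeSpace k Γ A).1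
      (fun x => ((t • a).2.1 x).1) (fun x => by simp [ha2]) (fun x => by simp [ha3])
    simp only [cocHom, AddMonoidHom.coe_mk, ZeroHom.coe_mk, RingHom.id_apply, this]
    rfl

variable {k}

theorem edgeToHom_apply (a : edgeSpace k Γ A) (γ : Γ) :
    edgeToHom hneg k a (Additive.ofMul γ)
      = cocOf hneg a.1 (fun x => (a.2.1 x).1) γ (baseCoset Γ) := rfl

/-- Edge data give cl homomorphisms. -/
theorem edgeToHom_isClHom (a : edgeSpace k Γ A) : IsClHom Γ (edgeToHom hneg k a) := by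
  intro γ htr
  obtain ⟨h1, h2, h3⟩ := cocOf_spec hneg a.1 (fun x => (a.2.1 x).1)
  rw [edgeToHom_apply]
  refine (isClCoc_of_mem_edgeSpace (k := k) hneg h1 h3 ?_).2 _ _ ((smul_baseCoset_eq _).mpr γ.2) htr
  simp only [h2]
  exact a.2

section Induce

/-- The cocycle induced by a homomorphism on `Γ`. -/
noncomputable def homCoc (φ : Additive Γ →+ A) (g : SL(2, ℤ)) (x : SL(2, ℤ) ⧸ Γ) : A :=
  φ (Additive.ofMul ⟨(g • x).out⁻¹ * g * x.out, by
    rw [mul_assoc, ← QuotientGroup.eq, QuotientGroup.out_eq', ← smul_eq_mul,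
      ← MulAction.Quotient.smul_coe, QuotientGroup.out_eq']⟩)

omit [Γ.FiniteIndex] in
theorem isClCoc_homCoc {φ : Additive Γ →+ A} (hφ : IsClHom Γ φ) : IsClCoc (homCoc φ) := by
  refine ⟨fun g h x => ?_, fun g x hx htr => hφ _ ?_⟩
  · rw [homCoc, homCoc, homCoc, ← map_add, ← ofMul_mul]
    congr 2
    apply Subtype.ext
    simp only [Subgroup.coe_mul, mul_smul, mul_assoc, mul_inv_cancel_left]
  · show |tr ((g • x).out⁻¹ * g * x.out)| ≤ 2
    rw [hx]
    nth_rewrite 2 [← inv_inv x.out]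
    rwa [tr_conj]

omit [Γ.FiniteIndex] in
theorem homCoc_apply_base (φ : Additive Γ →+ A) (γ : Γ) :
    homCoc φ γ (baseCoset Γ) = φ (Additive.ofMul γ) := by
  have hs : (baseCoset Γ).out ∈ Γ := by
    rw [← smul_baseCoset_eq, out_smul_baseCoset]
  let s : Γ := ⟨_, hs⟩
  have : (⟨((γ : SL(2, ℤ)) • baseCoset Γ).out⁻¹ * γ * (baseCoset Γ).out, by
      rw [(smul_baseCoset_eq _).mpr γ.2]
      exact Γ.mul_mem (Γ.mul_mem (inv_mem hs) γ.2) hs⟩ : Γ) = s⁻¹ * γ * s := by
    apply Subtype.ext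
    simp [s, (smul_baseCoset_eq _).mpr γ.2]
  unfold homCoc
  rw [this, ofMul_mul, ofMul_mul, ofMul_inv, map_add, map_add, map_neg]
  abel

omit [Γ.FiniteIndex] in
/-- Every cocycle can be normalised at `R`. -/
theorem exists_cobound_add {c : SL(2, ℤ) → (SL(2, ℤ) ⧸ Γ) → A} (hc : IsClCoc c) :
    ∃ f : (SL(2, ℤ) ⧸ Γ) → A, ∀ x, (c + cobound f) R x = 0 := by
  have hrep : ∀ x : SL(2, ℤ) ⧸ Γ, ∃ n : ℤ,
      x = R ^ n • (Quotient.mk'' x : VertOrbit Γ).out := by
    intro x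
    have h : x ∈ MulAction.orbit (Subgroup.zpowers R) (Quotient.mk'' x : VertOrbit Γ).out :=
      Quotient.eq''.mp (Quotient.out_eq' (Quotient.mk'' x : VertOrbit Γ)).symm
    obtain ⟨⟨_, n, rfl⟩, hn⟩ := h
    exact ⟨n, hn.symm⟩
  have hwd : ∀ (y : SL(2, ℤ) ⧸ Γ) (n m : ℤ), R ^ n • y = R ^ m • y →
      c (R ^ n) y = c (R ^ m) y := by
    intro y n m h
    have hy : R ^ (m - n) • y = y := by
      rw [sub_eq_neg_add, zpow_add, mul_smul, ← h, zpow_neg, inv_smul_smul]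
    have h0 : c (R ^ (m - n)) y = 0 := by
      refine hc.2 _ y hy ?_
      obtain ⟨q, r, hr0, hr3, hqr⟩ : ∃ q r : ℤ, 0 ≤ r ∧ r < 3 ∧ m - n = 3 * q + r :=
        ⟨(m - n) / 3, (m - n) % 3, Int.emod_nonneg _ (by norm_num),
          Int.emod_lt_of_pos _ (by norm_num), (Int.mul_ediv_add_emod _ _).symm⟩
      have h1 : R ^ (3 * q) = 1 ∨ R ^ (3 * q) = -1 := by
        rw [zpow_mul, show R ^ (3 : ℤ) = -1 from R_pow_three]
        obtain ⟨j, rfl⟩ | ⟨j, rfl⟩ := Int.even_or_odd q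
        · left; rw [← two_mul, zpow_mul]
          simp
        · right; rw [zpow_add_one, zpow_mul]
          simp
      rw [hqr, zpow_add]
      interval_cases r <;> rcases h1 with h1 | h1 <;>
        simp [h1, tr_neg, tr_R, show R ^ (2 : ℤ) = R ^ 2 from rfl, tr_R_sq,
          show tr (1 : SL(2, ℤ)) = 2 from by simp [tr]]
    have h2 : R ^ m = R ^ n * R ^ (m - n) := by rw [← zpow_add]; congr 1; ring
    rw [h2, hc.1, hy, h0, add_zero]
  choose num hnum using hrep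
  refine ⟨fun x => -c (R ^ num x) (Quotient.mk'' x : VertOrbit Γ).out, fun x => ?_⟩
  have hq : (Quotient.mk'' (R • x) : VertOrbit Γ) = Quotient.mk'' x :=
    Quotient.eq''.mpr ⟨⟨R, Subgroup.mem_zpowers R⟩, rfl⟩
  have hkey : c (R ^ num (R • x)) (Quotient.mk'' (R • x) : VertOrbit Γ).out
      = c (R ^ (1 + num x)) (Quotient.mk'' x : VertOrbit Γ).out := by
    rw [hq]
    refine hwd _ _ _ ?_
    have e := hnum (R • x)
    rw [hq] at e
    rw [← e, zpow_add, zpow_one, mul_smul, ← hnum x]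
  simp only [Pi.add_apply, cobound, hkey, zpow_add, zpow_one]
  rw [hc.1 R, ← hnum x]
  abel

include hneg

/-- Every cl homomorphism comes from edge data. -/
theorem exists_edgeToHom_eq (k : Type*) [Semiring k] [Module k A] {φ : Additive Γ →+ A}
    (hφ : IsClHom Γ φ) : ∃ a : edgeSpace k Γ A, edgeToHom hneg k a = φ := by
  obtain ⟨f, hf⟩ := exists_cobound_add (isClCoc_homCoc hφ)
  set c := homCoc φ + cobound f with hcdef
  have hc : IsClCoc c := (isClCoc_homCoc hφ).cobound_add f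
  have hanti : ∀ x, c S (S • x) = -c S x := by
    intro x
    refine eq_neg_of_add_eq_zero_left ?_
    rw [← hc.1, S_mul_S, hc.1.neg_one_eq_zero hf]
  have hmem : (fun y => c S y) ∈ edgeSpace k Γ A := by
    refine ⟨fun x => ⟨hanti x, fun h => hc.2 S x h (by simp [tr_S])⟩, ?_⟩
    refine LinearMap.mem_ker.mpr ?_
    funext q
    induction q using Quotient.inductionOn' with
    | h x =>
      rw [← IsCoc.T_pow_period (k := k) c hc.1 hf]
      exact hc.2 _ x (MulAction.pow_period_smul T x)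
        (by rw [← zpow_natCast, tr_T_zpow]; norm_num)
  refine ⟨⟨_, hmem⟩, ?_⟩
  have hcoc := cocOf_eq hneg hc.1 (fun y => c S y) (fun x => hanti x) (fun _ => rfl) hf
  refine AddMonoidHom.ext fun γ => ?_
  have : Additive.ofMul (Additive.toMul γ) = γ := rfl
  rw [← this, edgeToHom_apply]
  show cocOf hneg (fun y => c S y) _ _ _ = _
  rw [hcoc, hcdef, Pi.add_apply, Pi.add_apply, homCoc_apply_base, cobound,
    (smul_baseCoset_eq _).mpr (Additive.toMul γ).2, sub_self, add_zero]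

/-- The kernel consists of coboundaries of `R`-invariant functions. -/
theorem edgeToHom_eq_zero_iff (a : edgeSpace k Γ A) :
    edgeToHom hneg k a = 0 ↔
      ∃ f : (SL(2, ℤ) ⧸ Γ) → A, (∀ x, f (R • x) = f x) ∧ ∀ x, a.1 x = f (S • x) - f x := by
  obtain ⟨h1, h2, h3⟩ := cocOf_spec hneg a.1 (fun x => (a.2.1 x).1)
  set c := cocOf hneg a.1 (fun x => (a.2.1 x).1) with hcdef
  constructor
  · intro h
    have key : ∀ (g : SL(2, ℤ)) x,
        c (g • x).out (baseCoset Γ) = c g x + c x.out (baseCoset Γ) := by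
      intro g x
      obtain ⟨δ, hδ⟩ : ∃ δ : Γ, (g • x).out = g * x.out * δ := by
        refine ⟨⟨(g * x.out)⁻¹ * (g • x).out, ?_⟩, (mul_inv_cancel_left _ _).symm⟩
        rw [← QuotientGroup.eq, QuotientGroup.out_eq', ← smul_eq_mul,
          ← MulAction.Quotient.smul_coe, QuotientGroup.out_eq']
      rw [hδ, h1, (smul_baseCoset_eq _).mpr δ.2,
        show c (δ : SL(2, ℤ)) (baseCoset Γ) = 0 from DFunLike.congr_fun h (Additive.ofMul δ),
        add_zero, h1, out_smul_baseCoset]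
    refine ⟨fun x => c x.out (baseCoset Γ), fun x => ?_, fun x => ?_⟩
    · simp [key R x, h3]
    · simp [key S x, h2]
  · rintro ⟨f, hfR, hfS⟩
    have : c = cobound f := cocOf_eq hneg (isCoc_cobound f) _ _
      (fun x => (hfS x).symm) (fun x => by simp [cobound, hfR])
    refine AddMonoidHom.ext fun γ => ?_
    show c ((Additive.toMul γ : Γ) : SL(2, ℤ)) (baseCoset Γ) = 0
    rw [this, cobound, (smul_baseCoset_eq _).mpr (Additive.toMul γ).2, sub_self]

end Induce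

end Fermat.Agent.Grp
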