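import Mathlib.GroupTheory.GroupAction.Quotient
import Mathlib.GroupTheory.Perm.Cycle.Type

/-!
# Counting orbits of a single permutation

Orbits are cycles plus fixed points; this gives the orbit count for an element of prime order and
the sign of a permutation as a parity of orbit numbers, used for the parity of `rank Hom_cl`.
-/

namespace Fermat.Agent.Grp

open Equiv

theorem natCard_sameCycle_quotient {α : Type*} [Fintype α] [DecidableEq α] (σ : Perm α) :
    Nat.card (Quotient (Perm.SameCycle.setoid σ))
      = Multiset.card σ.cycleType + Fintype.card (Function.fixedPoints σ) := by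
  classical
  have hne : ∀ c : σ.cycleFactorsFinset, ∃ x, x ∈ c.1.support := fun c =>
    Finset.nonempty_iff_ne_empty.mpr fun h =>
      (Perm.mem_cycleFactorsFinset_iff.mp c.2).1.ne_one (Perm.support_eq_empty_iff.mp h)
  choose pt hpt using hne
  have hmv : ∀ c : σ.cycleFactorsFinset, σ (pt c) ≠ pt c := fun c =>
    Perm.mem_support.mp (Perm.mem_cycleFactorsFinset_support_le c.2 (hpt c))
  rw [show Multiset.card σ.cycleType = σ.cycleFactorsFinset.card by
      simp [Perm.cycleType_def],
    ← Fintype.card_coe, ← Fintype.card_sum, ← Nat.card_eq_fintype_card]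
  symm
  refine Nat.card_eq_of_bijective
    (Sum.elim (fun c => Quotient.mk _ (pt c)) (fun x => Quotient.mk _ x.1)) ⟨?_, ?_⟩
  · rintro (c | x) (c' | x') h <;> simp only [Sum.elim_inl, Sum.elim_inr] at h <;>
      have h' : σ.SameCycle _ _ := Quotient.exact h
    · refine congrArg Sum.inl (Subtype.ext ?_)
      rw [Perm.cycle_is_cycleOf (hpt c) c.2, Perm.cycle_is_cycleOf (hpt c') c'.2]
      exact h'.cycleOf_eq
    · exact absurd ((h'.apply_eq_self_iff).mpr x'.2) (hmv c)
    · exact absurd ((h'.apply_eq_self_iff).mp x.2) (hmv c')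
    · exact congrArg Sum.inr (Subtype.ext (h'.eq_of_left x.2))
  · intro q
    induction q using Quotient.inductionOn with
    | h y =>
      by_cases hy : σ y = y
      · exact ⟨Sum.inr ⟨y, hy⟩, rfl⟩
      · have hc : σ.cycleOf y ∈ σ.cycleFactorsFinset :=
          Perm.cycleOf_mem_cycleFactorsFinset_iff.mpr (Perm.mem_support.mpr hy)
        refine ⟨Sum.inl ⟨_, hc⟩, Quotient.sound ?_⟩
        have h := (Perm.mem_support_cycleOf_iff.mp (hpt ⟨_, hc⟩)).1
        exact h.symm

variable {G : Type*} [Group G] {α : Type*} [MulAction G α]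

theorem natCard_orbits_zpowers [Fintype α] [DecidableEq α] (g : G) :
    Nat.card (MulAction.orbitRel.Quotient (Subgroup.zpowers g) α)
      = Multiset.card (MulAction.toPermHom G α g).cycleType
        + Fintype.card (Function.fixedPoints (MulAction.toPermHom G α g)) := by
  rw [← natCard_sameCycle_quotient]
  refine Nat.card_congr (Quotient.congrRight fun x y => ?_)
  have hpow : ∀ (i : ℤ) (z : α), ((MulAction.toPermHom G α g) ^ i) z = g ^ i • z := by
    intro i z; rw [← map_zpow]; rfl
  constructor
  · rintro ⟨⟨_, i, rfl⟩, hi⟩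
    refine Perm.SameCycle.symm ⟨i, ?_⟩
    rw [hpow]; exact hi
  · rintro h
    obtain ⟨i, hi⟩ := Perm.SameCycle.symm h
    exact ⟨⟨g ^ i, i, rfl⟩, (hpow i y).symm.trans hi⟩

theorem natCard_fixed_zpowers [Fintype α] [DecidableEq α] (g : G) :
    Nat.card {x : α // g • x = x}
      = Fintype.card (Function.fixedPoints (MulAction.toPermHom G α g)) := by
  rw [← Nat.card_eq_fintype_card]; rfl

/-- The sign is the parity of the size minus the number of orbits. -/
theorem sign_toPerm_eq [Fintype α] [DecidableEq α] (g : G) :
    Perm.sign (MulAction.toPermHom G α g) =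
      (-1 : ℤˣ) ^ (Nat.card α + Nat.card (MulAction.orbitRel.Quotient (Subgroup.zpowers g) α)) := by
  rw [Perm.sign_of_cycleType, natCard_orbits_zpowers, Nat.card_eq_fintype_card]
  set σ := MulAction.toPermHom G α g
  have h1 := σ.card_fixedPoints
  have h2 := σ.sum_cycleType_le
  rw [show Fintype.card α + (Multiset.card σ.cycleType + Fintype.card (Function.fixedPoints σ))
      = σ.cycleType.sum + Multiset.card σ.cycleType
        + 2 * Fintype.card (Function.fixedPoints σ) by omega,
    pow_add _ (σ.cycleType.sum + Multiset.card σ.cycleType), pow_mul]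
  simp

/-- The orbit count for an element acting with prime order. -/
theorem prime_mul_natCard_orbits [Fintype α] (g : G) {p : ℕ} [Fact p.Prime]
    (hg : ∀ x : α, g ^ p • x = x) :
    p * Nat.card (MulAction.orbitRel.Quotient (Subgroup.zpowers g) α)
      = Nat.card α + (p - 1) * Nat.card {x : α // g • x = x} := by
  classical
  rw [natCard_orbits_zpowers, natCard_fixed_zpowers, Nat.card_eq_fintype_card]
  set σ := MulAction.toPermHom G α g
  have hσ : σ ^ p = 1 := by
    ext x; rw [← map_pow]; exact hg x
  have hsum : σ.cycleType.sum = Multiset.card σ.cycleType * p := by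
    conv_lhs => rw [Perm.cycleType_of_pow_prime_eq_one hσ]
    simp
  have h1 := σ.card_fixedPoints
  have h2 := σ.sum_cycleType_le
  obtain ⟨q, hq⟩ : ∃ q, p = q + 1 := ⟨p - 1, by have := (Fact.out : p.Prime).pos; omega⟩
  have key : p * (Multiset.card σ.cycleType + Fintype.card (Function.fixedPoints σ))
      = σ.cycleType.sum + Fintype.card (Function.fixedPoints σ)
        + q * Fintype.card (Function.fixedPoints σ) := by
    rw [hsum, hq]; ring
  have hq' : p - 1 = q := by omega
  rw [key, hq']
  omega

end Fermat.Agent.Grp
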