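import Mathlib.Data.Fintype.EquivFin
import Mathlib.LinearAlgebra.Dimension.Constructions
import Mathlib.LinearAlgebra.Dimension.Free
import Mathlib.LinearAlgebra.FiniteDimensional.Lemmas
import Fermat.Agent.Grp.EdgeHom
import Fermat.Agent.Grp.PermOrbits

/-!
# The dimension of `Hom_cl(Γ, k)` over a field

It equals `#edges + 2 - #faces - #vertices`, for every field `k`; the parity of these orbit
counts makes it even.
-/

namespace Fermat.Agent.Grp

open scoped MatrixGroups
open ModularGroup

variable {Γ : Subgroup SL(2, ℤ)} (hneg : (-1 : SL(2, ℤ)) ∈ Γ)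

include hneg in
theorem R_S_smul (x : SL(2, ℤ) ⧸ Γ) : S • R • x = T • x := by
  have h : R • x = S • T • x := by rw [← mul_smul]; rfl
  rw [h, S_smul_S_smul hneg]

/-- Representatives of the free `S`-orbits (edges). -/
abbrev EdgeIdx (Γ : Subgroup SL(2, ℤ)) [Γ.FiniteIndex] : Type :=
  {x : SL(2, ℤ) ⧸ Γ // Finite.equivFin _ x < Finite.equivFin _ (S • x)}

variable [Γ.FiniteIndex] (k : Type*) [Field k]

include hneg in
theorem nonempty_altSpace_equiv :
    Nonempty (altSpace k Γ k ≃ₗ[k] (EdgeIdx Γ → k)) := by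
  classical
  let o := Finite.equivFin (SL(2, ℤ) ⧸ Γ)
  let ext : (EdgeIdx Γ → k) → (SL(2, ℤ) ⧸ Γ) → k := fun e x =>
    if h : o x < o (S • x) then e ⟨x, h⟩
    else if h' : o (S • x) < o x then -e ⟨S • x, by rwa [S_smul_S_smul hneg]⟩ else 0
  have hext : ∀ e, ext e ∈ altSpace k Γ k := by
    intro e x
    refine ⟨?_, fun hx => by simp [ext, hx]⟩
    simp only [ext, S_smul_S_smul hneg]
    rcases lt_trichotomy (o x) (o (S • x)) with h | h | h
    · rw [dif_neg h.asymm, dif_pos h, dif_pos h]
    · simp [h]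
    · rw [dif_pos h, dif_neg h.asymm, dif_pos h, neg_neg]
  refine ⟨{ toFun := fun a i => a.1 i.1
            map_add' := fun _ _ => rfl
            map_smul' := fun _ _ => rfl
            invFun := fun e => ⟨ext e, hext e⟩
            left_inv := fun a => Subtype.ext (funext fun x => ?_)
            right_inv := fun e => funext fun i => by simp only [ext]; rw [dif_pos i.2] }⟩
  simp only [ext]
  rcases lt_trichotomy (o x) (o (S • x)) with h | h | h
  · rw [dif_pos h]
  · rw [dif_neg (by simp [h]), dif_neg (by simp [h]), (a.2 x).2 (o.injective h).symm]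
  · rw [dif_neg h.asymm, dif_pos h, (a.2 x).1, neg_neg]

include hneg in
/-- Edges are pairs of non-fixed cosets exchanged by `S`. -/
theorem two_mul_natCard_edgeIdx :
    2 * Nat.card (EdgeIdx Γ) + Nat.card {x : SL(2, ℤ) ⧸ Γ // S • x = x}
      = Nat.card (SL(2, ℤ) ⧸ Γ) := by
  classical
  rw [two_mul, ← Nat.card_sum, ← Nat.card_sum]
  let o := Finite.equivFin (SL(2, ℤ) ⧸ Γ)
  refine Nat.card_eq_of_bijective
    (Sum.elim (Sum.elim (fun e => e.1) (fun e => S • e.1)) (fun x => x.1)) ⟨?_, ?_⟩
  · have key : ∀ e e' : EdgeIdx Γ, S • e.1 ≠ e'.1 := by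
      intro e e' he
      have h' := e'.2
      rw [← he, S_smul_S_smul hneg] at h'
      exact lt_asymm e.2 h'
    have key' : ∀ (e : EdgeIdx Γ) (f : {x : SL(2, ℤ) ⧸ Γ // S • x = x}),
        e.1 ≠ f.1 ∧ S • e.1 ≠ f.1 := by
      intro e f
      have : S • e.1 ≠ e.1 := fun h => by
        have h2 := e.2
        rw [h] at h2
        exact lt_irrefl _ h2
      refine ⟨fun h => this (by rw [h]; exact f.2), fun h => this ?_⟩
      have h1 := congrArg (S • ·) h
      simp only [S_smul_S_smul hneg, f.2] at h1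
      rw [h, h1]
    rintro ((e | e) | f) ((e' | e') | f') h <;> simp only [Sum.elim_inl, Sum.elim_inr] at h
    · rw [Subtype.ext h]
    · exact absurd h.symm (key e' e)
    · exact absurd h (key' e f').1
    · exact absurd h (key e e')
    · rw [Subtype.ext (MulAction.injective S h)]
    · exact absurd h (key' e f').2
    · exact absurd h.symm (key' e' f).1
    · exact absurd h.symm (key' e' f).2
    · rw [Subtype.ext h]
  · intro x
    rcases lt_trichotomy (o x) (o (S • x)) with h | h | h
    · exact ⟨Sum.inl (Sum.inl ⟨x, h⟩), rfl⟩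
    · exact ⟨Sum.inr ⟨x, (o.injective h).symm⟩, rfl⟩
    · exact ⟨Sum.inl (Sum.inr ⟨S • x, by rwa [S_smul_S_smul hneg]⟩),
        S_smul_S_smul hneg x⟩

include hneg in
theorem orbit_counts :
    2 * Nat.card (MulAction.orbitRel.Quotient (Subgroup.zpowers S) (SL(2, ℤ) ⧸ Γ))
        = Nat.card (SL(2, ℤ) ⧸ Γ) + Nat.card {x : SL(2, ℤ) ⧸ Γ // S • x = x} ∧
      3 * Nat.card (VertOrbit Γ)
        = Nat.card (SL(2, ℤ) ⧸ Γ) + 2 * Nat.card {x : SL(2, ℤ) ⧸ Γ // R • x = x} := by
  let := Fintype.ofFinite (SL(2, ℤ) ⧸ Γ)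
  have : Fact (Nat.Prime 2) := ⟨Nat.prime_two⟩
  have : Fact (Nat.Prime 3) := ⟨Nat.prime_three⟩
  refine ⟨?_, ?_⟩
  · have h := prime_mul_natCard_orbits (α := SL(2, ℤ) ⧸ Γ) S (p := 2)
      (fun x => by rw [pow_two, mul_smul, S_smul_S_smul hneg])
    rwa [show 2 - 1 = 1 from rfl, one_mul] at h
  · exact prime_mul_natCard_orbits (α := SL(2, ℤ) ⧸ Γ) R (p := 3) (R_pow_three_smul hneg)

include hneg in
/-- The parity of the orbit counts. -/
theorem even_edges_add_vert_add_face :
    Even (Nat.card (EdgeIdx Γ) + Nat.card (VertOrbit Γ) + Nat.card (FaceOrbit Γ)) := by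
  classical
  let := Fintype.ofFinite (SL(2, ℤ) ⧸ Γ)
  obtain ⟨hS, hR⟩ := orbit_counts hneg
  have hE := two_mul_natCard_edgeIdx hneg
  let φ := MulAction.toPermHom SL(2, ℤ) (SL(2, ℤ) ⧸ Γ)
  have h3 : φ R ^ 3 = 1 := by
    ext x; rw [← map_pow]; exact R_pow_three_smul hneg x
  have hsR : Equiv.Perm.sign (φ R) = 1 := by
    have h := congrArg Equiv.Perm.sign h3
    rw [map_pow, map_one] at h
    rcases Int.units_eq_one_or (Equiv.Perm.sign (φ R)) with h' | h'
    · exact h'
    · rw [h'] at h; exact absurd h (by decide)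
  have hmul : Equiv.Perm.sign (φ S) * Equiv.Perm.sign (φ T) = 1 := by
    rw [← map_mul, ← map_mul]; exact hsR
  rw [sign_toPerm_eq] at hsR
  rw [sign_toPerm_eq, sign_toPerm_eq, ← pow_add] at hmul
  have e1 := (neg_one_pow_eq_one_iff_even (by decide : (-1 : ℤˣ) ≠ 1)).mp hsR
  have e2 := (neg_one_pow_eq_one_iff_even (by decide : (-1 : ℤˣ) ≠ 1)).mp hmul
  rw [Nat.even_iff] at e1 e2 ⊢
  have e1' : (Nat.card (SL(2, ℤ) ⧸ Γ) + Nat.card (VertOrbit Γ)) % 2 = 0 := e1
  have e2' : (Nat.card (SL(2, ℤ) ⧸ Γ)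
      + Nat.card (MulAction.orbitRel.Quotient (Subgroup.zpowers S) (SL(2, ℤ) ⧸ Γ))
      + (Nat.card (SL(2, ℤ) ⧸ Γ) + Nat.card (FaceOrbit Γ))) % 2 = 0 := e2
  clear e1 e2
  omega

/-- The vertex coboundary. -/
noncomputable def vertMap (Γ : Subgroup SL(2, ℤ)) :
    (VertOrbit Γ → k) →ₗ[k] ((SL(2, ℤ) ⧸ Γ) → k) :=
  LinearMap.funLeft k k (fun x => (Quotient.mk'' (S • x) : VertOrbit Γ))
    - LinearMap.funLeft k k (fun x => (Quotient.mk'' x : VertOrbit Γ))

omit [Γ.FiniteIndex] in
theorem vertMap_apply (f : VertOrbit Γ → k) (x : SL(2, ℤ) ⧸ Γ) :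
    vertMap k Γ f x = f (Quotient.mk'' (S • x)) - f (Quotient.mk'' x) := rfl

omit [Γ.FiniteIndex] in
theorem vert_mk_R (x : SL(2, ℤ) ⧸ Γ) :
    (Quotient.mk'' (R • x) : VertOrbit Γ) = Quotient.mk'' x :=
  Quotient.eq''.mpr ⟨⟨R, Subgroup.mem_zpowers R⟩, rfl⟩

omit [Γ.FiniteIndex] in
theorem face_mk_T (x : SL(2, ℤ) ⧸ Γ) :
    (Quotient.mk'' (T • x) : FaceOrbit Γ) = Quotient.mk'' x :=
  Quotient.eq''.mpr ⟨⟨T, Subgroup.mem_zpowers T⟩, rfl⟩

include hneg in
theorem range_vertMap_le : LinearMap.range (vertMap k Γ) ≤ edgeSpace k Γ k := by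
  classical
  let := Fintype.ofFinite (SL(2, ℤ) ⧸ Γ)
  rintro _ ⟨f, rfl⟩
  refine ⟨fun x => ⟨?_, fun hx => by rw [vertMap_apply, hx, sub_self]⟩, ?_⟩
  · rw [vertMap_apply, vertMap_apply, S_smul_S_smul hneg]; abel
  refine LinearMap.mem_ker.mpr (funext fun q => ?_)
  simp only [faceMap, LinearMap.coe_mk, AddHom.coe_mk, vertMap_apply, R_S_smul hneg, vert_mk_R,
    Finset.sum_sub_distrib, Pi.zero_apply, sub_eq_zero]
  refine Finset.sum_nbij' (fun x => T • x) (fun x => T⁻¹ • x) ?_ ?_ ?_ ?_ ?_
  · intro x hx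
    simpa [face_mk_T] using hx
  · intro x hx
    have : (Quotient.mk'' (T⁻¹ • x) : FaceOrbit Γ) = Quotient.mk'' x := by
      rw [← face_mk_T (T⁻¹ • x), smul_inv_smul]
    simpa [this] using hx
  · intros; simp
  · intros; simp
  · intros; rfl

omit [Γ.FiniteIndex] in
/-- A function invariant under two generators is constant. -/
theorem eq_base_of_invariant {α : Type*} (h : (SL(2, ℤ) ⧸ Γ) → α) (g₁ g₂ : SL(2, ℤ))
    (hgen : Subgroup.closure {g₁, g₂} = ⊤) (h₁ : ∀ x, h (g₁ • x) = h x)
    (h₂ : ∀ x, h (g₂ • x) = h x) (x : SL(2, ℤ) ⧸ Γ) : h x = h (baseCoset Γ) := by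
  have key : ∀ g ∈ Subgroup.closure {g₁, g₂}, ∀ y, h (g • y) = h y := by
    intro g hg
    induction hg using Subgroup.closure_induction with
    | mem g hg =>
      simp only [Set.mem_insert_iff, Set.mem_singleton_iff] at hg
      rcases hg with rfl | rfl <;> assumption
    | one => simp
    | mul a b _ _ ha hb => intro y; rw [mul_smul, ha, hb]
    | inv a _ ha => intro y; conv_rhs => rw [← smul_inv_smul a y, ha]
  rw [← out_smul_baseCoset x]
  exact key _ (by rw [hgen]; trivial) _

omit [Γ.FiniteIndex] in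
theorem closure_R_T : Subgroup.closure {R, T} = (⊤ : Subgroup SL(2, ℤ)) := by
  rw [eq_top_iff, ← SpecialLinearGroup.SL2Z_generators, Subgroup.closure_le]
  intro x hx
  simp only [Set.mem_insert_iff, Set.mem_singleton_iff] at hx
  rcases hx with rfl | rfl
  · rw [show S = R * T⁻¹ from by simp [R]]
    exact mul_mem (Subgroup.subset_closure (Set.mem_insert _ _))
      (inv_mem (Subgroup.subset_closure (Set.mem_insert_of_mem _ rfl)))
  · exact Subgroup.subset_closure (Set.mem_insert_of_mem _ rfl)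

theorem finrank_range_vertMap :
    Module.finrank k (LinearMap.range (vertMap k Γ)) + 1 = Nat.card (VertOrbit Γ) := by
  classical
  have : Finite (VertOrbit Γ) := Finite.of_surjective _ Quotient.mk''_surjective
  let := Fintype.ofFinite (VertOrbit Γ)
  let q0 : VertOrbit Γ := Quotient.mk'' (baseCoset Γ)
  have hone : (fun _ : VertOrbit Γ => (1 : k)) ≠ 0 := fun h => one_ne_zero (congrFun h q0)
  have hker : LinearMap.ker (vertMap k Γ) = Submodule.span k {fun _ => (1 : k)} := by
    ext f
    rw [LinearMap.mem_ker, Submodule.mem_span_singleton]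
    constructor
    · intro hf
      refine ⟨f q0, funext fun q => ?_⟩
      induction q using Quotient.inductionOn' with
      | h x =>
        have := eq_base_of_invariant (fun x => f (Quotient.mk'' x)) S R closure_S_R
          (fun y => sub_eq_zero.mp (by rw [← vertMap_apply, hf]; rfl))
          (fun y => by simp only [vert_mk_R]) x
        simp [q0, this]
    · rintro ⟨c, rfl⟩; funext x; simp [vertMap_apply]
  have h := LinearMap.finrank_range_add_finrank_ker (vertMap k Γ)
  rw [hker, finrank_span_singleton hone, Module.finrank_pi, ← Nat.card_eq_fintype_card] at h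
  exact h

include hneg in
/-- The face map takes edge functions onto the functions on faces with zero sum. -/
theorem range_faceMap_altSpace :
    Submodule.map (faceMap k Γ k) (altSpace k Γ k) =
      LinearMap.ker (letI := Fintype.ofFinite (FaceOrbit Γ);
        ∑ q : FaceOrbit Γ, (LinearMap.proj q : (FaceOrbit Γ → k) →ₗ[k] k)) := by
  classical
  let := Fintype.ofFinite (SL(2, ℤ) ⧸ Γ)
  have : Finite (FaceOrbit Γ) := Finite.of_surjective _ Quotient.mk''_surjective
  let := Fintype.ofFinite (FaceOrbit Γ)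
  refine le_antisymm ?_ fun v hv => ?_
  · rintro _ ⟨a, ha, rfl⟩
    rw [LinearMap.mem_ker]
    simp only [LinearMap.coe_sum, Finset.sum_apply, LinearMap.coe_proj, Function.eval, faceMap,
      LinearMap.coe_mk, AddHom.coe_mk]
    refine Eq.trans ?_ (?_ : ∑ x : SL(2, ℤ) ⧸ Γ, a x = 0)
    · rw [← Equiv.sum_comp (MulAction.toPerm R) a]
      convert Finset.sum_fiberwise Finset.univ
        (fun x : SL(2, ℤ) ⧸ Γ => (Quotient.mk'' x : FaceOrbit Γ)) (fun x => a (R • x))
      rfl
    refine Finset.sum_involution (fun x _ => S • x)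
      (fun x _ => by rw [(ha x).1]; abel) (fun x _ hx h => hx ((ha x).2 h))
      (fun x _ => Finset.mem_univ _) (fun x _ => S_smul_S_smul hneg x)
  · set M := Submodule.map (faceMap k Γ k) (altSpace k Γ k)
    let e : (SL(2, ℤ) ⧸ Γ) → (FaceOrbit Γ → k) := fun x => Pi.single (Quotient.mk'' x) 1
    have hδ : ∀ x, e (R⁻¹ • x) - e (R⁻¹ • S • x) ∈ M := by
      intro x
      refine ⟨Pi.single x 1 - Pi.single (S • x) 1, fun y => ?_, funext fun q => ?_⟩
      · have h1 : S • y = x ↔ y = S • x := by
          constructor <;> rintro rfl <;> rw [S_smul_S_smul hneg]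
        have h2 : S • y = S • x ↔ y = x := smul_left_cancel_iff S
        refine ⟨by simp [Pi.single_apply, h1, h2], fun hy => ?_⟩
        by_cases hx : y = x
        · subst hx; simp [hy]
        · have hx' : y ≠ S • x := fun h => hx (h2.mp (hy.trans h))
          simp [hx, hx']
      · simp only [faceMap, LinearMap.coe_mk, AddHom.coe_mk, Pi.sub_apply,
          Finset.sum_sub_distrib, Pi.single_apply, ← eq_inv_smul_iff, Finset.sum_ite_eq',
          Finset.mem_filter, Finset.mem_univ, true_and, e, eq_comm (a := q)]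
    have hmk : ∀ x, Submodule.Quotient.mk (p := M) (e x)
        = Submodule.Quotient.mk (e (baseCoset Γ)) := by
      have hT : ∀ x, e (T • x) = e x := fun x => by simp only [e, face_mk_T]
      refine eq_base_of_invariant (fun x => Submodule.Quotient.mk (p := M) (e x)) R T closure_R_T
        (fun y => ?_) (fun y => by simp only [hT])
      refine (Submodule.Quotient.eq M).mpr ?_
      have h := hδ (R • y)
      have hB : e (R⁻¹ • S • R • y) = e (R • y) := by
        rw [← hT (R⁻¹ • S • R • y), ← mul_smul R⁻¹ S, show R⁻¹ * S = T⁻¹ from by simp [R],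
          smul_inv_smul]
      rw [inv_smul_smul, hB] at h
      simpa using M.neg_mem h
    rw [LinearMap.mem_ker] at hv
    simp only [LinearMap.coe_sum, Finset.sum_apply, LinearMap.coe_proj, Function.eval] at hv
    have hv' : v = ∑ q, v q • (Pi.single q (1 : k) - e (baseCoset Γ)) := by
      simp only [smul_sub, Finset.sum_sub_distrib, ← Finset.sum_smul, hv, zero_smul, sub_zero]
      funext p
      simp [Pi.single_apply]
    rw [hv']
    refine M.sum_mem fun q _ => M.smul_mem _ ?_
    induction q using Quotient.inductionOn' with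
    | h x => exact (Submodule.Quotient.eq M).mp (hmk x)

include hneg in
/-- The dimension of the space of edge data. -/
theorem finrank_edgeSpace :
    Module.finrank k (edgeSpace k Γ k) + Nat.card (FaceOrbit Γ) = Nat.card (EdgeIdx Γ) + 1 := by
  classical
  have : Finite (FaceOrbit Γ) := Finite.of_surjective _ Quotient.mk''_surjective
  let := Fintype.ofFinite (FaceOrbit Γ)
  let := Fintype.ofFinite (EdgeIdx Γ)
  obtain ⟨eA⟩ := nonempty_altSpace_equiv hneg k
  set tot := ∑ q : FaceOrbit Γ, (LinearMap.proj q : (FaceOrbit Γ → k) →ₗ[k] k) with htot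
  have hsurj : LinearMap.range tot = ⊤ := by
    refine LinearMap.range_eq_top.mpr fun c => ⟨Pi.single (Quotient.mk'' (baseCoset Γ)) c, ?_⟩
    simp [tot, Pi.single_apply]
  have h1 := LinearMap.finrank_range_add_finrank_ker tot
  rw [hsurj, finrank_top, Module.finrank_self, Module.finrank_pi,
    ← Nat.card_eq_fintype_card] at h1
  set L := (faceMap k Γ k).domRestrict (altSpace k Γ k) with hL
  have hrange : LinearMap.range L = LinearMap.ker tot := by
    rw [hL, LinearMap.range_domRestrict]
    exact range_faceMap_altSpace hneg k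
  have : FiniteDimensional k (altSpace k Γ k) := Module.Finite.equiv eA.symm
  have h2 := LinearMap.finrank_range_add_finrank_ker L
  rw [hrange, eA.finrank_eq, Module.finrank_pi, ← Nat.card_eq_fintype_card] at h2
  have h3 : Module.finrank k (LinearMap.ker L) = Module.finrank k (edgeSpace k Γ k) := by
    have hle : edgeSpace k Γ k ≤ altSpace k Γ k := inf_le_left
    rw [← (Submodule.comapSubtypeEquivOfLe hle).finrank_eq]
    refine congrArg (fun p : Submodule k (altSpace k Γ k) => Module.finrank k p) ?_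
    ext a
    simp [hL, edgeSpace]
  omega

include hneg in
/-- The Euler characteristic formula for `dim Hom_cl(Γ, k)`. -/
theorem finrank_clHoms_add :
    Module.finrank k (clHoms k Γ k) + Nat.card (FaceOrbit Γ) + Nat.card (VertOrbit Γ)
      = Nat.card (EdgeIdx Γ) + 2 ∧ FiniteDimensional k (clHoms k Γ k) := by
  classical
  let := Fintype.ofFinite (SL(2, ℤ) ⧸ Γ)
  have hrange : LinearMap.range (edgeToHom (A := k) hneg k) = clHoms k Γ k := by
    refine le_antisymm ?_ fun φ hφ => exists_edgeToHom_eq hneg k hφ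
    rintro _ ⟨a, rfl⟩
    exact edgeToHom_isClHom hneg a
  have hker : LinearMap.ker (edgeToHom (A := k) hneg k)
      = Submodule.comap (edgeSpace k Γ k).subtype (LinearMap.range (vertMap k Γ)) := by
    ext a
    rw [LinearMap.mem_ker, edgeToHom_eq_zero_iff, Submodule.mem_comap, LinearMap.mem_range]
    constructor
    · rintro ⟨f, hfR, hf⟩
      have hinv : ∀ x y : SL(2, ℤ) ⧸ Γ,
          (MulAction.orbitRel (Subgroup.zpowers R) (SL(2, ℤ) ⧸ Γ)).r x y → f x = f y := by
        rintro x y ⟨⟨_, i, rfl⟩, rfl⟩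
        show f (R ^ i • y) = f y
        induction i using Int.induction_on with
        | zero => rw [zpow_zero, one_smul]
        | succ i ih => rw [add_comm, zpow_add, zpow_one, mul_smul, hfR, ih]
        | pred i ih =>
          rw [← ih, sub_eq_add_neg (-(i : ℤ)), add_comm, zpow_add, zpow_neg_one, mul_smul]
          conv_rhs => rw [← smul_inv_smul R (R ^ (-(i : ℤ)) • y), hfR]
      exact ⟨Quotient.lift f hinv, funext fun x => (hf x).symm⟩
    · rintro ⟨g, hg⟩
      exact ⟨fun x => g (Quotient.mk'' x), fun x => by simp only [vert_mk_R],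
        fun x => (congrFun hg x).symm⟩
  have h1 := LinearMap.finrank_range_add_finrank_ker (edgeToHom (A := k) hneg k)
  rw [hrange, hker,
    (Submodule.comapSubtypeEquivOfLe (range_vertMap_le hneg k)).finrank_eq] at h1
  have h2 := finrank_range_vertMap (Γ := Γ) k
  have h3 := finrank_edgeSpace hneg k
  refine ⟨by omega, ?_⟩
  rw [← hrange]
  infer_instance

end Fermat.Agent.Grp
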