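import Mathlib.Algebra.Field.ZMod
import Mathlib.GroupTheory.Abelianization.Defs
import Mathlib.GroupTheory.FiniteAbelian.Basic
import Mathlib.GroupTheory.Schreier
import Fermat.Agent.Grp.Rank

/-!
# The universal target of `Hom_cl(Γ, ·)`

It is free of rank `clRank Γ`: finitely generated, with the same dimension of duals over every
field.
-/

namespace Fermat.Agent.Grp

open scoped MatrixGroups
open ModularGroup
open scoped DirectSum

variable (Γ : Subgroup SL(2, ℤ))

/-- The elements killed by every cl homomorphism, in the abelianisation. -/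
def clKill : AddSubgroup (Additive (Abelianization Γ)) :=
  AddSubgroup.closure
    ((fun γ : Γ => Additive.ofMul (Abelianization.of γ)) '' {γ | |tr (γ : SL(2, ℤ))| ≤ 2})

/-- The universal cl quotient (first homology of the compact surface). -/
abbrev ClAb : Type := Additive (Abelianization Γ) ⧸ clKill Γ

/-- The universal cl hom. -/
def clMk : Additive Γ →+ ClAb Γ :=
  (QuotientAddGroup.mk' (clKill Γ)).comp (MonoidHom.toAdditive Abelianization.of)

theorem clMk_surjective : Function.Surjective (clMk Γ) :=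
  (QuotientAddGroup.mk'_surjective _).comp Quotient.mk''_surjective

theorem isClHom_clMk : IsClHom Γ (clMk Γ) := by
  intro γ hγ
  exact (QuotientAddGroup.eq_zero_iff _).mpr (AddSubgroup.subset_closure ⟨γ, hγ, rfl⟩)

variable {Γ}

/-- The universal property of `ClAb Γ`. -/
theorem exists_comp_clMk {A : Type*} [AddCommGroup A] {φ : Additive Γ →+ A}
    (hφ : IsClHom Γ φ) : ∃ f : ClAb Γ →+ A, f.comp (clMk Γ) = φ := by
  let g : Additive (Abelianization Γ) →+ A :=
    MonoidHom.toAdditiveLeft (Abelianization.lift (AddMonoidHom.toMultiplicativeRight φ))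
  have hg : ∀ γ : Γ, g (Additive.ofMul (Abelianization.of γ)) = φ (Additive.ofMul γ) := fun γ => by
    show Multiplicative.toAdd (Abelianization.lift (AddMonoidHom.toMultiplicativeRight φ)
      (Abelianization.of γ)) = _
    rw [Abelianization.lift_apply_of]
    rfl
  refine ⟨QuotientAddGroup.lift _ g ?_, AddMonoidHom.ext fun γ => hg (Additive.toMul γ)⟩
  rw [clKill, AddSubgroup.closure_le]
  rintro _ ⟨γ, hγ, rfl⟩
  exact (hg γ).trans (hφ γ hγ)

variable (Γ) in
/-- `Hom_cl(Γ, A)` is `Hom(ClAb Γ, A)`. -/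
noncomputable def clHomsEquiv (k : Type*) [Semiring k] (A : Type*) [AddCommGroup A] [Module k A] :
    (ClAb Γ →+ A) ≃ₗ[k] clHoms k Γ A :=
  LinearEquiv.ofBijective
    { toFun := fun f => ⟨f.comp (clMk Γ), (isClHom_clMk Γ).comp f⟩
      map_add' := fun _ _ => rfl
      map_smul' := fun _ _ => rfl }
    ⟨fun f g h => by
      have h' : f.comp (clMk Γ) = g.comp (clMk Γ) := congrArg Subtype.val h
      exact (AddMonoidHom.cancel_right (clMk_surjective Γ)).mp h',
     fun φ => by
      obtain ⟨f, hf⟩ := exists_comp_clMk φ.2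
      exact ⟨f, Subtype.ext hf⟩⟩

theorem fg_SL2Z : Group.FG SL(2, ℤ) :=
  Group.fg_iff.mpr ⟨{S, T}, SpecialLinearGroup.SL2Z_generators, Set.toFinite _⟩

theorem fg_clAb [Γ.FiniteIndex] : AddGroup.FG (ClAb Γ) := by
  have := fg_SL2Z
  have : Group.FG Γ := inferInstance
  have : AddGroup.FG (Additive Γ) := inferInstance
  exact AddGroup.fg_of_surjective (clMk_surjective Γ)

/-- If `G ≅ ℤⁿ × B` and `B` has no nonzero hom to `ℚ`, then `Hom(G, ℚ)` has dimension `n`. -/
theorem finrank_addHom_rat {G B : Type*} [AddCommGroup G] [AddCommGroup B] {n : ℕ}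
    (E : G ≃+ (Fin n →₀ ℤ) × B) (hB : ∀ h : B →+ ℚ, h = 0) :
    Module.finrank ℚ (G →+ ℚ) = n := by
  classical
  have key : ∀ (f : G →+ ℚ) x, f x
      = ∑ j, ((E x).1 j : ℚ) * f (E.symm (Finsupp.single j 1, 0)) := by
    intro f x
    have htor : f (E.symm (0, (E x).2)) = 0 :=
      DFunLike.congr_fun (hB (f.comp (E.symm.toAddMonoidHom.comp (AddMonoidHom.inr _ _)))) (E x).2
    let g : (Fin n →₀ ℤ) →+ ℚ := f.comp (E.symm.toAddMonoidHom.comp (AddMonoidHom.inl _ _))
    have hx : f x = g (E x).1 + f (E.symm (0, (E x).2)) := by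
      simp only [g, AddMonoidHom.comp_apply, AddEquiv.coe_toAddMonoidHom,
        AddMonoidHom.inl_apply, ← map_add, Prod.mk_add_mk, add_zero, zero_add, Prod.mk.eta,
        AddEquiv.symm_apply_apply]
    rw [hx, htor, add_zero]
    conv_lhs => rw [← Finsupp.univ_sum_single ((E x).1), map_sum]
    refine Finset.sum_congr rfl fun j _ => ?_
    rw [← Finsupp.smul_single_one, map_zsmul, zsmul_eq_mul]
    simp [g]
  let toF : (G →+ ℚ) →ₗ[ℚ] (Fin n → ℚ) :=
    { toFun := fun f j => f (E.symm (Finsupp.single j 1, 0))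
      map_add' := fun _ _ => rfl
      map_smul' := fun _ _ => rfl }
  have hb : Function.Bijective toF := by
    refine ⟨fun f g h => AddMonoidHom.ext fun x => ?_, fun v =>
      ⟨∑ j, v j • (Int.castAddHom ℚ).comp ((Finsupp.applyAddHom j).comp
        ((AddMonoidHom.fst _ _).comp E.toAddMonoidHom)), ?_⟩⟩
    · rw [key f, key g]
      exact Finset.sum_congr rfl fun j _ => congrArg _ (congrFun h j)
    · funext i
      simp [toF, Finsupp.single_apply]
  rw [(LinearEquiv.ofBijective toF hb).finrank_eq, Module.finrank_pi, Fintype.card_fin]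

/-- `ClAb Γ` is free of rank `clRank Γ`. -/
theorem exists_clAb_equiv (hneg : (-1 : SL(2, ℤ)) ∈ Γ) [Γ.FiniteIndex] :
    Nonempty (ClAb Γ ≃+ (Fin (clRank Γ) → ℤ)) := by
  classical
  have := fg_clAb (Γ := Γ)
  obtain ⟨n, ι, fι, p, hp, e, ⟨E⟩⟩ := AddCommGroup.equiv_free_prod_directSum_zmod (ClAb Γ)
  -- the coordinate functionals
  let coord : ∀ (k : Type) [AddCommGroupWithOne k] (_ : Fin n), ClAb Γ →+ k := fun k _ j =>
    (Int.castAddHom k).comp ((Finsupp.applyAddHom j).comp
      ((AddMonoidHom.fst _ _).comp E.toAddMonoidHom))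
  have dim : ∀ (k : Type) [Field k],
      Module.finrank k (ClAb Γ →+ k) + Nat.card (FaceOrbit Γ) + Nat.card (VertOrbit Γ)
        = Nat.card (EdgeIdx Γ) + 2 ∧ FiniteDimensional k (ClAb Γ →+ k) := by
    intro k _
    obtain ⟨h1, h2⟩ := finrank_clHoms_add hneg k
    exact ⟨by rwa [(clHomsEquiv Γ k k).finrank_eq], Module.Finite.equiv (clHomsEquiv Γ k k).symm⟩
  have hQ : Module.finrank ℚ (ClAb Γ →+ ℚ) = n := finrank_addHom_rat E fun h =>
    DirectSum.addHom_ext fun i y => by
      have hm : (p i ^ e i) • y = 0 := by rw [nsmul_eq_mul, ZMod.natCast_self, zero_mul]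
      have h2 : ((p i ^ e i : ℕ) : ℚ) * h (DirectSum.of _ i y) = 0 := by
        rw [← nsmul_eq_mul, ← map_nsmul, ← map_nsmul, hm, map_zero, map_zero]
      rcases mul_eq_zero.mp h2 with h3 | h3
      · exact absurd (Nat.cast_eq_zero.mp h3) (pow_ne_zero _ (hp i).ne_zero)
      · rw [h3]; rfl
  have htors : ∀ i, e i = 0 := by
    intro i
    by_contra hi
    have : Fact (p i).Prime := ⟨hp i⟩
    let red : ZMod (p i ^ e i) →+ ZMod (p i) :=
      (ZMod.castHom (dvd_pow_self (p i) hi) (ZMod (p i))).toAddMonoidHom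
    let ev : (⨁ j, ZMod (p j ^ e j)) →+ ZMod (p i ^ e i) :=
      DFinsupp.evalAddMonoidHom (β := fun j => ZMod (p j ^ e j)) i
    let tors : ClAb Γ →+ ZMod (p i) :=
      red.comp (ev.comp ((AddMonoidHom.snd _ _).comp E.toAddMonoidHom))
    let v : Option (Fin n) → (ClAb Γ →+ ZMod (p i)) := fun o => o.elim tors (coord _)
    have hli : LinearIndependent (ZMod (p i)) v := by
      rw [Fintype.linearIndependent_iff]
      intro g hg o
      have happ : ∀ x, ∑ o, g o * v o x = 0 := fun x => by
        have := DFunLike.congr_fun hg x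
        simpa using this
      cases o with
      | some j =>
        simpa [Fintype.sum_option, v, tors, coord, Finsupp.single_apply] using
          happ (E.symm (Finsupp.single j 1, 0))
      | none =>
        have h := happ (E.symm (0, DirectSum.of (fun j => ZMod (p j ^ e j)) i 1))
        have hev : ev (DirectSum.of (fun j => ZMod (p j ^ e j)) i 1) = 1 :=
          DirectSum.of_eq_same (β := fun j => ZMod (p j ^ e j)) i 1
        simp only [Fintype.sum_option, v, Option.elim, tors, coord, AddMonoidHom.comp_apply,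
          AddEquiv.coe_toAddMonoidHom, AddEquiv.apply_symm_apply, AddMonoidHom.coe_snd,
          AddMonoidHom.coe_fst, Finsupp.applyAddHom_apply, Finsupp.coe_zero, Pi.zero_apply,
          Int.coe_castAddHom, Int.cast_zero, mul_zero, Finset.sum_const_zero, add_zero, hev,
          red, RingHom.toAddMonoidHom_eq_coe, AddMonoidHom.coe_coe, map_one, mul_one] at h
        exact h
    obtain ⟨d1, d2⟩ := dim (ZMod (p i))
    have h := hli.fintype_card_le_finrank
    rw [Fintype.card_option, Fintype.card_fin] at h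
    obtain ⟨d0, -⟩ := dim ℚ
    omega
  have hn : clRank Γ = n := by rw [clRank, ← (clHomsEquiv Γ ℚ ℚ).finrank_eq, hQ]
  rw [hn]
  have : ∀ i, Subsingleton (ZMod (p i ^ e i)) := fun i => by
    rw [htors i, pow_zero]; infer_instance
  have : Unique (⨁ i, ZMod (p i ^ e i)) :=
    { default := 0, uniq := fun x => DFinsupp.ext fun i => Subsingleton.elim _ _ }
  exact ⟨E.trans (AddEquiv.prodUnique.trans
    (Finsupp.linearEquivFunOnFinite ℤ ℤ (Fin n)).toAddEquiv)⟩

end Fermat.Agent.Grp
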