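import Fermat.Agent.Grp.Index

/-!
# The orbits of `T` on `SL(2, ℤ) ⧸ Γ₀(N)` are counted by `cuspCount N`

Cusps are sorted by the divisor `gcd(c, N)` of a representative column `(a, c)`.
-/

namespace Fermat.Agent.Grp

open scoped MatrixGroups
open ModularGroup CongruenceSubgroup

/-- The orbits of `T` on cosets. -/
abbrev CuspOrbit (N : ℕ) : Type := MulAction.orbitRel.Quotient (Subgroup.zpowers T) (X0Coset N)

/-- The cusp of `g`. -/
def cuspOf (N : ℕ) (g : SL(2, ℤ)) : CuspOrbit N :=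
  Quotient.mk'' ((g : SL(2, ℤ)) : X0Coset N)

theorem cuspOf_surjective (N : ℕ) : Function.Surjective (cuspOf N) := by
  intro q
  induction q using Quotient.inductionOn' with
  | h x => induction x using QuotientGroup.induction_on with | _ g => exact ⟨g, rfl⟩

/-- When two matrices give the same cusp. -/
theorem cuspOf_eq_iff {N : ℕ} (g h : SL(2, ℤ)) :
    cuspOf N g = cuspOf N h ↔
      (Int.gcd N (g 1 0 * h 1 0) : ℤ) ∣ g 0 0 * h 1 0 - g 1 0 * h 0 0 := by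
  rw [eq_comm, cuspOf, cuspOf, Quotient.eq'', MulAction.orbitRel_apply, MulAction.mem_orbit_iff]
  have key : ∀ n : ℤ, (T ^ n) • (g : X0Coset N) = (h : X0Coset N) ↔
      (N : ℤ) ∣ (g 0 0 + n * g 1 0) * h 1 0 - g 1 0 * h 0 0 := by
    intro n
    rw [MulAction.Quotient.smul_coe, smul_eq_mul, mk_eq_mk_iff]
    have h00 : (T ^ n * g : SL(2, ℤ)) 0 0 = g 0 0 + n * g 1 0 := by
      rw [Matrix.SpecialLinearGroup.coe_mul, coe_T_zpow]
      simp [Matrix.mul_apply, Fin.sum_univ_two]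
    have h10 : (T ^ n * g : SL(2, ℤ)) 1 0 = g 1 0 := by
      rw [Matrix.SpecialLinearGroup.coe_mul, coe_T_zpow]
      simp [Matrix.mul_apply, Fin.sum_univ_two]
    rw [h00, h10]
  constructor
  · rintro ⟨⟨_, n, rfl⟩, hn⟩
    have h' := (key n).mp hn
    have h1 : (Int.gcd N (g 1 0 * h 1 0) : ℤ) ∣ g 1 0 * h 1 0 := Int.gcd_dvd_right _ _
    have h2 := dvd_sub ((Int.gcd_dvd_left (N : ℤ) (g 1 0 * h 1 0)).trans h') (h1.mul_left n)
    rwa [show (g 0 0 + n * g 1 0) * h 1 0 - g 1 0 * h 0 0 - n * (g 1 0 * h 1 0)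
      = g 0 0 * h 1 0 - g 1 0 * h 0 0 by ring] at h2
  · rintro ⟨k, hk⟩
    refine ⟨⟨_, -k * Int.gcdB N (g 1 0 * h 1 0), rfl⟩, ?_⟩
    refine (key _).mpr ⟨k * Int.gcdA N (g 1 0 * h 1 0), ?_⟩
    linear_combination hk + k * Int.gcd_eq_gcd_ab (N : ℤ) (g 1 0 * h 1 0)

/-- The divisor attached to a cusp representative. -/
def cuspDiv (N : ℕ) (g : SL(2, ℤ)) : ℕ := Int.gcd (g 1 0) N

theorem cuspDiv_dvd_left (N : ℕ) (g : SL(2, ℤ)) : (cuspDiv N g : ℤ) ∣ g 1 0 := Int.gcd_dvd_left _ _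

theorem cuspDiv_dvd_right (N : ℕ) (g : SL(2, ℤ)) : (cuspDiv N g : ℤ) ∣ (N : ℤ) :=
  Int.gcd_dvd_right _ _

theorem isCoprime_col (g : SL(2, ℤ)) : IsCoprime (g 0 0) (g 1 0) :=
  ⟨g 1 1, -g 0 1, by linear_combination det_eq g⟩

theorem cuspDiv_eq_of_cuspOf_eq {N : ℕ} {g h : SL(2, ℤ)} (e : cuspOf N g = cuspOf N h) :
    cuspDiv N g = cuspDiv N h := by
  have key : ∀ g h : SL(2, ℤ), cuspOf N g = cuspOf N h → cuspDiv N g ∣ cuspDiv N h := by
    intro g h e
    have h1 := (Int.dvd_coe_gcd (cuspDiv_dvd_right N g)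
      ((cuspDiv_dvd_left N g).mul_right (h 1 0))).trans ((cuspOf_eq_iff g h).mp e)
    have h2 : (cuspDiv N g : ℤ) ∣ g 0 0 * h 1 0 := by
      have h4 := dvd_add h1 ((cuspDiv_dvd_left N g).mul_right (h 0 0))
      rwa [sub_add_cancel] at h4
    have h3 : (cuspDiv N g : ℤ) ∣ h 1 0 :=
      ((isCoprime_col g).symm.of_isCoprime_of_dvd_left
        (cuspDiv_dvd_left N g)).dvd_of_dvd_mul_left h2
    exact Int.natCast_dvd_natCast.mp (Int.dvd_coe_gcd h3 (cuspDiv_dvd_right N g))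
  exact Nat.dvd_antisymm (key g h e) (key h g e.symm)

/-- The divisor attached to a cusp. -/
noncomputable def cuspLevel (N : ℕ) (q : CuspOrbit N) : ℕ :=
  cuspDiv N (Function.surjInv (cuspOf_surjective N) q)

theorem cuspLevel_cuspOf (N : ℕ) (g : SL(2, ℤ)) : cuspLevel N (cuspOf N g) = cuspDiv N g :=
  cuspDiv_eq_of_cuspOf_eq (Function.surjInv_eq (cuspOf_surjective N) (cuspOf N g))

theorem exists_col_of_isCoprime {a c : ℤ} (h : IsCoprime a c) :
    ∃ g : SL(2, ℤ), g 0 0 = a ∧ g 1 0 = c := by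
  obtain ⟨x, y, hxy⟩ := h
  exact ⟨⟨!![a, -y; c, x], by rw [Matrix.det_fin_two_of]; linear_combination hxy⟩, rfl, rfl⟩

/-- There are `φ(gcd(d, N/d))` cusps with divisor `d`. -/
theorem natCard_cuspLevel (N : ℕ) [NeZero N] {d : ℕ} (hd : d ∣ N) :
    Nat.card {q : CuspOrbit N // cuspLevel N q = d} = Nat.totient (Nat.gcd d (N / d)) := by
  obtain ⟨M, rfl⟩ := hd
  have hd0 : 0 < d := Nat.pos_of_ne_zero fun h => NeZero.ne (d * M) (by simp [h])
  rw [Nat.mul_div_cancel_left M hd0]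
  set G := Nat.gcd d M with hG
  have : NeZero G := ⟨(Nat.gcd_pos_of_pos_left M hd0).ne'⟩
  have : NeZero d := ⟨hd0.ne'⟩
  rw [← ZMod.card_units_eq_totient, ← Nat.card_eq_fintype_card]
  have hrep : ∀ r : (ZMod G)ˣ, ∃ g : SL(2, ℤ), ((g 0 0 : ℤ) : ZMod G) = r ∧ g 1 0 = d := by
    intro r
    obtain ⟨u, hu⟩ := ZMod.unitsMap_surjective (Nat.gcd_dvd_left d M) r
    obtain ⟨g, hg0, hg1⟩ := exists_col_of_isCoprime (a := ((u : ZMod d).val : ℤ)) (c := (d : ℤ))
      (Nat.isCoprime_iff_coprime.mpr (ZMod.val_coe_unit_coprime u))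
    refine ⟨g, ?_, hg1⟩
    rw [hg0, ← hu, ZMod.unitsMap_val]
    simp
  choose rep hrep0 hrep1 using hrep
  have hdiv : ∀ r, cuspDiv (d * M) (rep r) = d := fun r => by
    rw [cuspDiv, hrep1, Int.gcd_natCast_natCast]; exact Nat.gcd_mul_right_right M d |>.trans rfl
  have hGd : (G : ℤ) ∣ (d : ℤ) := Int.natCast_dvd_natCast.mpr (Nat.gcd_dvd_left d M)
  symm
  refine Nat.card_eq_of_bijective (fun r => ⟨cuspOf _ (rep r), by rw [cuspLevel_cuspOf, hdiv r]⟩)
    ⟨?_, ?_⟩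
  · intro r s hrs
    have h := (cuspOf_eq_iff _ _).mp (congrArg Subtype.val hrs)
    rw [hrep1, hrep1, show rep r 0 0 * (d : ℤ) - d * rep s 0 0 = d * (rep r 0 0 - rep s 0 0) by
      ring, Nat.cast_mul, Int.gcd_mul_left, Int.natAbs_natCast, Nat.cast_mul] at h
    have h' : (G : ℤ) ∣ rep r 0 0 - rep s 0 0 := by
      have := Int.dvd_of_mul_dvd_mul_left (by exact_mod_cast hd0.ne') h
      rwa [Int.gcd_natCast_natCast, Nat.gcd_comm] at this
    rw [← ZMod.intCast_zmod_eq_zero_iff_dvd, Int.cast_sub, hrep0, hrep0, sub_eq_zero] at h'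
    exact Units.ext h'
  · rintro ⟨q, hq⟩
    obtain ⟨g, rfl⟩ := cuspOf_surjective _ q
    rw [cuspLevel_cuspOf] at hq
    obtain ⟨u, hu⟩ : (d : ℤ) ∣ g 1 0 := by simpa [hq] using cuspDiv_dvd_left (d * M) g
    have hcop : IsCoprime u (M : ℤ) := by
      rw [Int.isCoprime_iff_gcd_eq_one]
      have h := hq
      rw [cuspDiv, hu, Nat.cast_mul, Int.gcd_mul_left, Int.natAbs_natCast] at h
      exact (mul_eq_left₀ hd0.ne').mp h
    have hua : IsUnit ((g 0 0 : ℤ) : ZMod G) := (ZMod.coe_int_isUnit_iff_isCoprime _ _).mpr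
      (((isCoprime_col g).of_isCoprime_of_dvd_right (hu ▸ (hGd.mul_right u))).symm)
    have huu : IsUnit ((u : ℤ) : ZMod G) := (ZMod.coe_int_isUnit_iff_isCoprime _ _).mpr
      ((hcop.of_isCoprime_of_dvd_right (Int.natCast_dvd_natCast.mpr (Nat.gcd_dvd_right d M))).symm)
    refine ⟨hua.unit * huu.unit⁻¹, Subtype.ext ?_⟩
    set r := hua.unit * huu.unit⁻¹ with hr
    have h' : (G : ℤ) ∣ rep r 0 0 * u - g 0 0 := by
      rw [← ZMod.intCast_zmod_eq_zero_iff_dvd, Int.cast_sub, Int.cast_mul, hrep0, hr,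
        sub_eq_zero, Units.val_mul, mul_assoc]
      rw [show ((huu.unit⁻¹ : (ZMod G)ˣ) : ZMod G) * (u : ZMod G) = 1 from by
        conv_lhs => arg 2; rw [← huu.unit_spec]
        rw [Units.inv_mul], mul_one, hua.unit_spec]
    refine (cuspOf_eq_iff _ _).mpr ?_
    rw [hrep1, hu, show rep r 0 0 * ((d : ℤ) * u) - d * g 0 0 = d * (rep r 0 0 * u - g 0 0) by
      ring, Nat.cast_mul, Int.gcd_mul_left, Int.natAbs_natCast, Nat.cast_mul]
    refine mul_dvd_mul_left _ ((Int.natCast_dvd_natCast.mpr ?_).trans h')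
    rw [← Int.natCast_dvd_natCast]
    have h1 : (Int.gcd (M : ℤ) (d * u) : ℤ) ∣ (d : ℤ) :=
      (hcop.symm.of_isCoprime_of_dvd_left (Int.gcd_dvd_left _ _)).dvd_of_dvd_mul_right
        (Int.gcd_dvd_right _ _)
    rw [hG, ← Int.gcd_natCast_natCast]
    exact Int.dvd_coe_gcd h1 (Int.gcd_dvd_left _ _)

/-- The cusps of `Γ₀(N)` are counted by `cuspCount N`. -/
theorem natCard_cuspOrbit (N : ℕ) [NeZero N] :
    Nat.card (CuspOrbit N) = ModularCurve.cuspCount N := by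
  classical
  have : Finite (CuspOrbit N) := Finite.of_surjective _ Quotient.mk''_surjective
  have : Fintype (CuspOrbit N) := Fintype.ofFinite _
  rw [Nat.card_eq_fintype_card, ← Finset.card_univ,
    Finset.card_eq_sum_card_fiberwise (f := cuspLevel N) (t := N.divisors)]
  · refine Finset.sum_congr rfl fun d hd => ?_
    rw [← natCard_cuspLevel N (Nat.dvd_of_mem_divisors hd), Nat.card_eq_fintype_card,
      Fintype.card_subtype]
  · intro q _
    obtain ⟨g, rfl⟩ := cuspOf_surjective N q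
    rw [Finset.mem_coe, cuspLevel_cuspOf, Nat.mem_divisors]
    exact ⟨Int.natCast_dvd_natCast.mp (cuspDiv_dvd_right N g), NeZero.ne N⟩

end Fermat.Agent.Grp
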