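import Mathlib.Data.ZMod.Basic
import Mathlib.NumberTheory.ModularForms.CongruenceSubgroups
import Fermat.Agent.Grp.ClAb
import Fermat.Agent.Grp.Cusps

/-!
# `Hom_cl(Γ₀(N), ·)` is free of rank `2g`

The orbit counts give the classical genus formula; over torsion-free coefficients cl and
parabolic homomorphisms coincide.
-/

namespace Fermat.Agent.Grp

open scoped MatrixGroups
open ModularGroup CongruenceSubgroup

theorem neg_one_mem_Gamma0 (N : ℕ) : (-1 : SL(2, ℤ)) ∈ Gamma0 N := by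
  rw [Gamma0_mem]; simp

/-- The rank of `Hom_cl(Γ₀(N), ·)` is twice the genus. -/
theorem Gamma0_genus (N : ℕ) [NeZero N] :
    ∃ g : ℕ, (g : ℚ) = ModularCurve.genusFormula N ∧ clRank (Gamma0 N) = 2 * g := by
  have hneg := neg_one_mem_Gamma0 N
  obtain ⟨hd, -⟩ := finrank_clHoms_add hneg ℚ
  obtain ⟨-, hV⟩ := orbit_counts hneg
  have hE := two_mul_natCard_edgeIdx hneg
  have hS := natCard_fixed_S_eq N
  have hR := natCard_fixed_R_eq N
  have hn := natCard_coset N
  have hT := natCard_cuspOrbit N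
  simp only [X0Coset, CuspOrbit] at hS hR hn hT
  obtain ⟨m, hm⟩ := even_edges_add_vert_add_face hneg
  rw [hR, hn] at hV
  rw [hS, hn] at hE
  have hF : Nat.card (FaceOrbit (Gamma0 N)) = ModularCurve.cuspCount N := hT
  rw [hF] at hd hm
  obtain ⟨g, hg⟩ : ∃ g, clRank (Gamma0 N) = 2 * g := ⟨clRank (Gamma0 N) / 2, by
    unfold clRank; omega⟩
  refine ⟨g, ?_, hg⟩
  unfold clRank at hg
  rw [hg] at hd
  have e1 : (2 * g + ModularCurve.cuspCount N + Nat.card (VertOrbit (Gamma0 N)) : ℚ)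
      = Nat.card (EdgeIdx (Gamma0 N)) + 2 := by exact_mod_cast hd
  have e2 : (3 * Nat.card (VertOrbit (Gamma0 N)) : ℚ)
      = ModularCurve.dedekindPsi N + 2 * ModularCurve.nuThree N := by exact_mod_cast hV
  have e3 : (2 * Nat.card (EdgeIdx (Gamma0 N)) + ModularCurve.nuTwo N : ℚ)
      = ModularCurve.dedekindPsi N := by exact_mod_cast hE
  rw [ModularCurve.genusFormula]
  linear_combination (1 / 2 : ℚ) * e1 - (1 / 6 : ℚ) * e2 + (1 / 4 : ℚ) * e3

/-- A basis valid for all coefficient groups. -/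
theorem clBasis_exists (Γ : Subgroup SL(2, ℤ)) (hneg : (-1 : SL(2, ℤ)) ∈ Γ) [Γ.FiniteIndex] :
    ∃ (γ : Fin (clRank Γ) → Γ) (e : Fin (clRank Γ) → (Additive Γ →+ ℤ)),
      (∀ i, IsClHom Γ (e i)) ∧
      (∀ i j, e i (Additive.ofMul (γ j)) = if i = j then 1 else 0) ∧
      ∀ (A : Type*) [AddCommGroup A] (φ : Additive Γ →+ A), IsClHom Γ φ →
        ∀ x, φ x = ∑ i, e i x • φ (Additive.ofMul (γ i)) := by
  classical
  obtain ⟨E⟩ := exists_clAb_equiv hneg
  choose γ hγ using fun i => clMk_surjective Γ (E.symm (Pi.single i 1))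
  refine ⟨fun i => Additive.toMul (γ i),
    fun i => ((Pi.evalAddMonoidHom _ i).comp E.toAddMonoidHom).comp (clMk Γ),
    fun i => (isClHom_clMk Γ).comp _, fun i j => ?_, ?_⟩
  · simp [hγ, Pi.single_apply]
  · intro A _ φ hφ x
    obtain ⟨f, rfl⟩ := exists_comp_clMk hφ
    set y := clMk Γ x with hy
    have hdec : y = ∑ i, E y i • E.symm (Pi.single i 1) := by
      apply E.injective
      rw [map_sum]
      funext j
      simp [Pi.single_apply]
    calc f.comp (clMk Γ) x = f y := rfl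
      _ = ∑ i, E y i • f (E.symm (Pi.single i 1)) := by
        conv_lhs => rw [hdec, map_sum]
        simp only [map_zsmul]
      _ = _ := by
        refine Finset.sum_congr rfl fun i _ => ?_
        simp [hγ, hy]

/-- `Hom_cl(Γ, A) ≅ A ^ clRank Γ`. -/
theorem nonempty_clHoms_equiv_pi (Γ : Subgroup SL(2, ℤ)) (hneg : (-1 : SL(2, ℤ)) ∈ Γ)
    [Γ.FiniteIndex] (R : Type*) [Semiring R] (A : Type*) [AddCommGroup A] [Module R A] :
    Nonempty (clHoms R Γ A ≃ₗ[R] (Fin (clRank Γ) → A)) := by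
  obtain ⟨γ, e, he, hed, hdec⟩ := clBasis_exists Γ hneg
  refine ⟨LinearEquiv.ofBijective
    { toFun := fun φ i => φ.1 (Additive.ofMul (γ i))
      map_add' := fun _ _ => rfl
      map_smul' := fun _ _ => rfl } ⟨fun φ ψ h => Subtype.ext (AddMonoidHom.ext fun x => ?_),
    fun v => ?_⟩⟩
  · rw [hdec A φ.1 φ.2 x, hdec A ψ.1 ψ.2 x]
    exact Finset.sum_congr rfl fun i _ => congrArg _ (congrFun h i)
  · refine ⟨⟨∑ i, (zmultiplesHom A (v i)).comp (e i), ?_⟩, ?_⟩
    · intro x hx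
      simp [he _ x hx]
    · funext j
      simp [hed]

theorem natCard_clHoms_zmod_eq (Γ : Subgroup SL(2, ℤ)) (hneg : (-1 : SL(2, ℤ)) ∈ Γ)
    [Γ.FiniteIndex] (m : ℕ) :
    Nat.card (clHoms ℤ Γ (ZMod m)) = m ^ clRank Γ := by
  obtain ⟨e⟩ := nonempty_clHoms_equiv_pi Γ hneg ℤ (ZMod m)
  rw [Nat.card_congr e.toEquiv, Nat.card_fun, Nat.card_zmod, Nat.card_fin]

/-- In a torsion-free group, killing `trace² = 4` already kills all elliptic elements. -/
theorem isParabolicHom_iff_isClHom {Γ : Subgroup SL(2, ℤ)} (_hneg : (-1 : SL(2, ℤ)) ∈ Γ)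
    {A : Type*} [AddCommGroup A] [IsAddTorsionFree A] (φ : Additive Γ →+ A) :
    ModularCurve.Period.IsParabolicHom Γ φ ↔ IsClHom Γ φ := by
  refine ⟨fun h γ hγ => ?_, IsClHom.isParabolicHom⟩
  by_cases h4 : tr (γ : SL(2, ℤ)) ^ 2 = 4
  · exact h γ h4
  obtain ⟨g, e, hge, he⟩ := isBasicUpToConj_of_abs_tr_le_two _ hγ
  have hpow : e ^ 12 = 1 := by
    rcases he with ⟨n, rfl⟩ | rfl | rfl | rfl
    · exfalso
      apply h4
      rcases hge with hge | hge <;> rw [hge] <;> simp only [tr_neg, tr_conj, tr_T_zpow] <;>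
        norm_num
    · rw [show 12 = 2 * 6 from rfl, pow_mul, pow_two, S_mul_S]; exact Even.neg_one_pow (by decide)
    · rw [show 12 = 3 * 4 from rfl, pow_mul, R_pow_three]; exact Even.neg_one_pow (by decide)
    · rw [← pow_mul, show 2 * 12 = 3 * 8 from rfl, pow_mul, R_pow_three]
      exact Even.neg_one_pow (by decide)
  have h12 : γ ^ 12 = 1 := by
    apply Subtype.ext
    rw [Subgroup.coe_pow, Subgroup.coe_one]
    rcases hge with hge | hge <;> rw [hge]
    · rw [conj_pow, hpow]; simp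
    · rw [Even.neg_pow (by decide), conj_pow, hpow]; simp
  have : (12 : ℕ) • φ (Additive.ofMul γ) = (12 : ℕ) • (0 : A) := by
    rw [← map_nsmul, ← ofMul_pow, h12, smul_zero, ofMul_one, map_zero]
  exact nsmul_right_injective (by norm_num) this

/-- Over torsion-free coefficients parabolic homomorphisms are cl. -/
theorem parabolicHoms_eq (N : ℕ) (R : Type*) [Semiring R] (A : Type*)
    [AddCommGroup A] [IsAddTorsionFree A] [Module R A] :
    ModularCurve.Period.parabolicHoms R (Gamma0 N) A = clHoms R (Gamma0 N) A :=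
  Submodule.ext fun φ => isParabolicHom_iff_isClHom (neg_one_mem_Gamma0 N) φ

end Fermat.Agent.Grp
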