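import Mathlib.Algebra.Group.Torsion
import Mathlib.GroupTheory.QuotientGroup.Basic
import Fermat.Prelude.Def_ModularCurve_PeriodMap

/-!
# Homomorphisms killing elliptic and parabolic elements

For `Γ ≤ SL(2, ℤ)`, a homomorphism is "cl" if it kills all elements with `|trace| ≤ 2`. These
are the cohomology classes of the closed surface of `Γ`; their rank is `2g`.
-/

namespace Fermat.Agent.Grp

open scoped MatrixGroups

/-- The trace of an element of `SL(2, ℤ)`. -/
def tr (γ : SL(2, ℤ)) : ℤ := (γ : Matrix (Fin 2) (Fin 2) ℤ).trace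

/-- `φ` kills every element with `|trace| ≤ 2`, i.e. `± 1`, parabolic and elliptic elements. -/
def IsClHom (Γ : Subgroup SL(2, ℤ)) {A : Type*} [AddCommGroup A] (φ : Additive Γ →+ A) : Prop :=
  ∀ γ : Γ, |tr (γ : SL(2, ℤ))| ≤ 2 → φ (Additive.ofMul γ) = 0

/-- The module `Hom_cl(Γ, A)`. -/
def clHoms (R : Type*) [Semiring R] (Γ : Subgroup SL(2, ℤ)) (A : Type*) [AddCommGroup A]
    [Module R A] : Submodule R (Additive Γ →+ A) where
  carrier := {φ | IsClHom Γ φ}
  zero_mem' := fun _ _ => rfl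
  add_mem' := by
    intro φ ψ hφ hψ γ hγ
    show φ (Additive.ofMul γ) + ψ (Additive.ofMul γ) = 0
    rw [hφ γ hγ, hψ γ hγ, add_zero]
  smul_mem' := by
    intro c φ hφ γ hγ
    show c • φ (Additive.ofMul γ) = 0
    rw [hφ γ hγ, smul_zero]

/-- A cl homomorphism is parabolic. -/
theorem IsClHom.isParabolicHom {Γ : Subgroup SL(2, ℤ)} {A : Type*} [AddCommGroup A]
    {φ : Additive Γ →+ A} (h : IsClHom Γ φ) : ModularCurve.Period.IsParabolicHom Γ φ := by
  intro γ hγ
  refine h γ ?_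
  exact (sq_le_sq₀ (abs_nonneg _) (by norm_num)).mp (by rw [sq_abs]; exact le_of_eq (by
    simpa [tr] using hγ))

theorem IsClHom.comp {Γ : Subgroup SL(2, ℤ)} {A B : Type*} [AddCommGroup A] [AddCommGroup B]
    {φ : Additive Γ →+ A} (h : IsClHom Γ φ) (f : A →+ B) : IsClHom Γ (f.comp φ) := by
  intro γ hγ
  simp [h γ hγ]

/-- `2g` for the compact surface attached to `Γ`: the rank of `Hom_cl(Γ, ℚ)`. -/
noncomputable def clRank (Γ : Subgroup SL(2, ℤ)) : ℕ := Module.finrank ℚ (clHoms ℚ Γ ℚ)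

end Fermat.Agent.Grp
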