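import Mathlib.LinearAlgebra.Matrix.FixedDetMatrices
import Mathlib.NumberTheory.Modular
import Mathlib.Tactic.IntervalCases
import Mathlib.Tactic.Linarith
import Mathlib.Tactic.LinearCombination
import Fermat.Agent.Grp.Defs

/-!
# The elements `S`, `R = ST`, and elements with `|trace| ≤ 2`

Up to sign, an element of `SL(2, ℤ)` with `|trace| ≤ 2` is conjugate to a power of `T`, to `S`,
to `R` or to `R²`.
-/

namespace Fermat.Agent.Grp

open scoped MatrixGroups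
open ModularGroup

theorem tr_eq (γ : SL(2, ℤ)) : tr γ = γ 0 0 + γ 1 1 := Matrix.trace_fin_two _

theorem tr_conj (g e : SL(2, ℤ)) : tr (g * e * g⁻¹) = tr e := by
  simp only [tr, Matrix.SpecialLinearGroup.coe_mul]
  rw [Matrix.trace_mul_comm, ← mul_assoc, ← Matrix.SpecialLinearGroup.coe_mul, inv_mul_cancel,
    Matrix.SpecialLinearGroup.coe_one, one_mul]

theorem tr_neg (γ : SL(2, ℤ)) : tr (-γ) = -tr γ := by
  simp [tr, Matrix.trace_neg]

/-- `R = S T`, of order 6 in `SL(2,ℤ)` and order 3 in `PSL(2,ℤ)`. -/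
def R : SL(2, ℤ) := S * T

theorem coe_R : (R : Matrix (Fin 2) (Fin 2) ℤ) = !![0, -1; 1, 1] := by
  simp [R, coe_S, coe_T]

/-- `S² = -1`. -/
theorem S_mul_S : S * S = (-1 : SL(2, ℤ)) := by
  ext i j; fin_cases i <;> fin_cases j <;> simp [coe_S]

theorem coe_R_sq : ((R ^ 2 : SL(2, ℤ)) : Matrix (Fin 2) (Fin 2) ℤ) = !![-1, -1; 1, 0] := by
  rw [pow_two, Matrix.SpecialLinearGroup.coe_mul, coe_R]
  ext i j; fin_cases i <;> fin_cases j <;> simp

/-- `R³ = -1`. -/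
theorem R_pow_three : R ^ 3 = (-1 : SL(2, ℤ)) := by
  ext i j
  rw [pow_succ, Matrix.SpecialLinearGroup.coe_mul, coe_R_sq, coe_R]
  fin_cases i <;> fin_cases j <;> simp

theorem T_eq_S_inv_mul_R : T = S⁻¹ * R := by simp [R]

theorem tr_neg_one : tr (-1 : SL(2, ℤ)) = -2 := by rw [tr_neg]; simp [tr]

theorem tr_S : tr S = 0 := by simp [tr_eq, coe_S]

theorem tr_R : tr R = 1 := by simp [tr_eq, coe_R]

theorem tr_R_sq : tr (R ^ 2) = -1 := by rw [tr_eq, coe_R_sq]; simp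

theorem tr_T_zpow (n : ℤ) : tr (T ^ n) = 2 := by simp [tr_eq, coe_T_zpow]

/-- `S` and `R` generate `SL(2, ℤ)`. -/
theorem closure_S_R : Subgroup.closure {S, R} = (⊤ : Subgroup SL(2, ℤ)) := by
  rw [eq_top_iff, ← SpecialLinearGroup.SL2Z_generators, Subgroup.closure_le]
  intro x hx
  simp only [Set.mem_insert_iff, Set.mem_singleton_iff] at hx
  rcases hx with rfl | rfl
  · exact Subgroup.subset_closure (Set.mem_insert _ _)
  · rw [T_eq_S_inv_mul_R]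
    exact mul_mem (inv_mem (Subgroup.subset_closure (Set.mem_insert _ _)))
      (Subgroup.subset_closure (Set.mem_insert_of_mem _ rfl))

/-- The normal forms of elements with `|trace| ≤ 2`, up to sign. -/
def IsBasicElt (e : SL(2, ℤ)) : Prop :=
  (∃ n : ℤ, e = T ^ n) ∨ e = S ∨ e = R ∨ e = R ^ 2

/-- `γ` is, up to sign, conjugate to a basic element. -/
def IsBasicUpToConj (γ : SL(2, ℤ)) : Prop :=
  ∃ g e : SL(2, ℤ), (γ = g * e * g⁻¹ ∨ γ = -(g * e * g⁻¹)) ∧ IsBasicElt e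

theorem IsBasicUpToConj.of_conj {γ : SL(2, ℤ)} (h : SL(2, ℤ))
    (hγ : IsBasicUpToConj (h * γ * h⁻¹)) : IsBasicUpToConj γ := by
  obtain ⟨g, e, hge, he⟩ := hγ
  refine ⟨h⁻¹ * g, e, ?_, he⟩
  rcases hge with hge | hge
  · left
    calc γ = h⁻¹ * (h * γ * h⁻¹) * h := by group
      _ = _ := by rw [hge]; group
  · right
    calc γ = h⁻¹ * (h * γ * h⁻¹) * h := by group
      _ = _ := by rw [hge, mul_neg, neg_mul]; exact congrArg Neg.neg (by group)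

theorem IsBasicUpToConj.of_basic {e : SL(2, ℤ)} (he : IsBasicElt e) : IsBasicUpToConj e :=
  ⟨1, e, Or.inl (by group), he⟩

theorem IsBasicUpToConj.of_neg {γ : SL(2, ℤ)} (h : IsBasicUpToConj (-γ)) : IsBasicUpToConj γ := by
  obtain ⟨g, e, hge, he⟩ := h
  refine ⟨g, e, ?_, he⟩
  rcases hge with hge | hge
  · right; rw [← hge, neg_neg]
  · left; exact neg_injective hge

theorem S_conj (γ : SL(2, ℤ)) :
    ((S * γ * S⁻¹ : SL(2, ℤ)) : Matrix (Fin 2) (Fin 2) ℤ)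
      = !![γ 1 1, -γ 1 0; -γ 0 1, γ 0 0] := by
  rw [Matrix.SpecialLinearGroup.coe_mul, Matrix.SpecialLinearGroup.coe_mul,
    Matrix.SpecialLinearGroup.coe_inv, coe_S, Matrix.adjugate_fin_two_of]
  conv_lhs => rw [Matrix.eta_fin_two (γ : Matrix (Fin 2) (Fin 2) ℤ)]
  ext i j
  fin_cases i <;> fin_cases j <;> simp [Matrix.mul_apply, Fin.sum_univ_two]

theorem T_zpow_conj (γ : SL(2, ℤ)) (k : ℤ) :
    ((T ^ k * γ * (T ^ k)⁻¹ : SL(2, ℤ)) : Matrix (Fin 2) (Fin 2) ℤ)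
      = !![γ 0 0 + k * γ 1 0, γ 0 1 + k * (γ 1 1 - γ 0 0) - k * k * γ 1 0;
           γ 1 0, γ 1 1 - k * γ 1 0] := by
  rw [Matrix.SpecialLinearGroup.coe_mul, Matrix.SpecialLinearGroup.coe_mul,
    Matrix.SpecialLinearGroup.coe_inv, coe_T_zpow, Matrix.adjugate_fin_two_of]
  conv_lhs => rw [Matrix.eta_fin_two (γ : Matrix (Fin 2) (Fin 2) ℤ)]
  ext i j
  fin_cases i <;> fin_cases j <;> simp [Matrix.mul_apply, Fin.sum_univ_two] <;> ring

theorem det_eq (γ : SL(2, ℤ)) : γ 0 0 * γ 1 1 - γ 0 1 * γ 1 0 = 1 := by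
  have h := γ.det_coe
  rwa [Matrix.det_fin_two] at h

theorem eq_of_coe {γ : SL(2, ℤ)} {a b c d : ℤ} (ha : γ 0 0 = a) (hb : γ 0 1 = b) (hc : γ 1 0 = c)
    (hd : γ 1 1 = d) : (γ : Matrix (Fin 2) (Fin 2) ℤ) = !![a, b; c, d] := by
  ext i j; fin_cases i <;> fin_cases j <;> simp [ha, hb, hc, hd]

/-- A reduced element (`d - a` in `(-|c|, |c|]`, `|c| ≤ |b|`) with `|trace| ≤ 2` and `c ≠ 0` is,
up to sign, conjugate to `S`, `R` or `R²`. -/
theorem isBasicUpToConj_of_reduced (δ : SL(2, ℤ)) (hδ : |tr δ| ≤ 2) (hc : δ 1 0 ≠ 0)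
    (hk1 : -|δ 1 0| < δ 1 1 - δ 0 0) (hk2 : δ 1 1 - δ 0 0 ≤ |δ 1 0|)
    (hb' : |δ 1 0| ≤ |δ 0 1|) : IsBasicUpToConj δ := by
  have hdet := det_eq δ
  rw [tr_eq] at hδ
  obtain ⟨ht1, ht2⟩ := abs_le.mp hδ
  have hpos : 0 < |δ 1 0| := abs_pos.mpr hc
  have hbc : |δ 1 0| * |δ 1 0| ≤ |δ 0 1 * δ 1 0| := by
    rw [abs_mul]; exact mul_le_mul_of_nonneg_right hb' (abs_nonneg _)
  have key : 4 * (δ 0 1 * δ 1 0)
      = (δ 0 0 + δ 1 1) * (δ 0 0 + δ 1 1) - 4 - (δ 1 1 - δ 0 0) * (δ 1 1 - δ 0 0) := by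
    linear_combination -4 * hdet
  have hneg : δ 0 1 * δ 1 0 ≤ 0 := by nlinarith
  rw [abs_of_nonpos hneg] at hbc
  have hc1 : |δ 1 0| = 1 := by nlinarith
  rw [hc1] at hk1 hk2
  have hbd : δ 0 1 * δ 1 0 = -1 ∧
      ((δ 0 0 = 0 ∧ δ 1 1 = 0) ∨ (δ 0 0 = 0 ∧ δ 1 1 = 1) ∨ (δ 0 0 = -1 ∧ δ 1 1 = 0)) := by
    rw [hc1] at hbc
    have hbc1 : δ 0 1 * δ 1 0 ≤ -1 := by linarith
    have h : δ 1 1 - δ 0 0 = 0 ∨ δ 1 1 - δ 0 0 = 1 := by omega
    have hd : δ 1 1 = δ 0 0 ∨ δ 1 1 = δ 0 0 + 1 := by omega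
    generalize δ 0 1 * δ 1 0 = m at key hbc1 ⊢
    obtain ⟨a, ha⟩ : ∃ a, δ 0 0 = a := ⟨_, rfl⟩
    obtain ⟨d, hd'⟩ : ∃ d, δ 1 1 = d := ⟨_, rfl⟩
    simp only [ha, hd'] at key h hd ht1 ht2 ⊢
    have hta : -1 ≤ a ∧ a ≤ 1 := by omega
    obtain ⟨ha1, ha2⟩ := hta
    rcases hd with hd | hd <;> rw [hd] at key ⊢ <;> interval_cases a <;> norm_num at key ⊢ <;> omega
  obtain ⟨hbceq, hcases⟩ := hbd
  rcases Int.eq_one_or_neg_one_of_mul_eq_one (show δ 1 0 * (-δ 0 1) = 1 by linarith) with hc' | hc'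
  · have hb1 : δ 0 1 = -1 := by rw [hc'] at hbceq; linarith
    rcases hcases with ⟨ha, hd⟩ | ⟨ha, hd⟩ | ⟨ha, hd⟩
    · have : δ = S := Subtype.ext ((eq_of_coe ha hb1 hc' hd).trans coe_S.symm)
      exact this ▸ .of_basic (Or.inr (Or.inl rfl))
    · have : δ = R := Subtype.ext ((eq_of_coe ha hb1 hc' hd).trans coe_R.symm)
      exact this ▸ .of_basic (Or.inr (Or.inr (Or.inl rfl)))
    · have : δ = R ^ 2 := Subtype.ext ((eq_of_coe ha hb1 hc' hd).trans coe_R_sq.symm)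
      exact this ▸ .of_basic (Or.inr (Or.inr (Or.inr rfl)))
  · have hb1 : δ 0 1 = 1 := by rw [hc'] at hbceq; linarith
    rcases hcases with ⟨ha, hd⟩ | ⟨ha, hd⟩ | ⟨ha, hd⟩
    · have hS : -δ = S := Subtype.ext (by
        rw [coe_S]
        exact eq_of_coe (by simp [ha]) (by simp [hb1]) (by simp [hc']) (by simp [hd]))
      exact .of_neg (hS ▸ .of_basic (Or.inr (Or.inl rfl)))
    · refine ⟨S, R ^ 2, Or.inr ?_, Or.inr (Or.inr (Or.inr rfl))⟩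
      rw [← neg_eq_iff_eq_neg]
      apply Subtype.ext
      rw [S_conj, coe_R_sq]
      exact eq_of_coe (by simp [ha]) (by simp [hb1]) (by simp [hc']) (by simp [hd])
    · refine ⟨S, R, Or.inr ?_, Or.inr (Or.inr (Or.inl rfl))⟩
      rw [← neg_eq_iff_eq_neg]
      apply Subtype.ext
      rw [S_conj, coe_R]
      exact eq_of_coe (by simp [ha]) (by simp [hb1]) (by simp [hc']) (by simp [hd])

/-- An element with `|trace| ≤ 2` is, up to sign, conjugate to a basic one. -/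
theorem isBasicUpToConj_of_abs_tr_le_two (γ : SL(2, ℤ)) (h : |tr γ| ≤ 2) : IsBasicUpToConj γ := by
  induction hn : (γ 1 0).natAbs using Nat.strong_induction_on generalizing γ with
  | _ n ih =>
  by_cases hc : γ 1 0 = 0
  · have hd := det_eq γ
    rw [hc, mul_zero, sub_zero] at hd
    rcases Int.eq_one_or_neg_one_of_mul_eq_one hd with ha | ha
    · have hd' : γ 1 1 = 1 := by rw [ha, one_mul] at hd; exact hd
      have : γ = T ^ (γ 0 1) := by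
        apply Subtype.ext
        rw [coe_T_zpow]; exact eq_of_coe ha rfl hc hd'
      rw [this]; exact .of_basic (Or.inl ⟨_, rfl⟩)
    · have hd' : γ 1 1 = -1 := by rw [ha] at hd; linarith
      have : -γ = T ^ (-γ 0 1) := by
        apply Subtype.ext
        rw [coe_T_zpow]; exact eq_of_coe (by simp [ha]) (by simp) (by simp [hc]) (by simp [hd'])
      exact .of_neg (this ▸ .of_basic (Or.inl ⟨_, rfl⟩))
  -- shift `d - a` into the interval `(-|c|, |c|]`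
  obtain ⟨k, hk1, hk2⟩ : ∃ k : ℤ, -|γ 1 0| < (γ 1 1 - γ 0 0) - 2 * k * γ 1 0 ∧
      (γ 1 1 - γ 0 0) - 2 * k * γ 1 0 ≤ |γ 1 0| := by
    set x := γ 1 1 - γ 0 0
    have hpos : 0 < 2 * |γ 1 0| := by positivity
    refine ⟨(SignType.sign (γ 1 0) : ℤ) * ((x + |γ 1 0| - 1) / (2 * |γ 1 0|)), ?_⟩
    have h1 := Int.emod_add_mul_ediv (x + |γ 1 0| - 1) (2 * |γ 1 0|)
    have h2 := Int.emod_nonneg (x + |γ 1 0| - 1) hpos.ne'
    have h3 := Int.emod_lt_of_pos (x + |γ 1 0| - 1) hpos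
    have h4 : 2 * ((SignType.sign (γ 1 0) : ℤ) * ((x + |γ 1 0| - 1) / (2 * |γ 1 0|))) * γ 1 0
        = 2 * |γ 1 0| * ((x + |γ 1 0| - 1) / (2 * |γ 1 0|)) := by
      rw [← sign_mul_self (γ 1 0)]
      ring
    rw [h4]
    constructor <;> linarith
  apply IsBasicUpToConj.of_conj (T ^ k)
  set δ := T ^ k * γ * (T ^ k)⁻¹ with hδdef
  have hδ : |tr δ| ≤ 2 := by rw [tr_conj]; exact h
  have hδc : δ 1 0 = γ 1 0 := by rw [hδdef, T_zpow_conj]; simp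
  have hx : δ 1 1 - δ 0 0 = (γ 1 1 - γ 0 0) - 2 * k * γ 1 0 := by
    rw [hδdef, T_zpow_conj]; simp; ring
  rw [← hx, ← hδc] at hk1 hk2
  rw [← hδc] at hc hn
  clear_value δ
  clear h hδdef hx hδc k γ
  by_cases hb : (δ 0 1).natAbs < n
  · refine IsBasicUpToConj.of_conj S (ih _ hb _ (by rw [tr_conj]; exact hδ) ?_)
    rw [S_conj]; simp
  exact isBasicUpToConj_of_reduced δ hδ hc hk1 hk2
    (by rw [Int.abs_eq_natAbs, Int.abs_eq_natAbs, hn]; exact_mod_cast not_lt.mp hb)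

end Fermat.Agent.Grp
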