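import Mathlib.Data.ZMod.QuotientGroup
import Mathlib.Data.ZMod.Units
import Mathlib.NumberTheory.ModularForms.CongruenceSubgroups
import Fermat.Prelude.Def_ModularCurve_GenusNumerics
import Fermat.Agent.Grp.Elements

/-!
# The coset space `SL(2, ℤ) ⧸ Γ₀(N)` via first columns

The fixed points of `S` and of `ST` are counted by `nuTwo N` and `nuThree N`.
-/

namespace Fermat.Agent.Grp

open scoped MatrixGroups
open ModularGroup CongruenceSubgroup

/-- The coset space, on which `SL(2,ℤ)` acts by left multiplication. -/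
abbrev X0Coset (N : ℕ) : Type := SL(2, ℤ) ⧸ Gamma0 N

theorem mk_eq_mk_iff {N : ℕ} (g h : SL(2, ℤ)) :
    (g : X0Coset N) = h ↔ (N : ℤ) ∣ g 0 0 * h 1 0 - g 1 0 * h 0 0 := by
  rw [QuotientGroup.eq, Gamma0_mem, ZMod.intCast_zmod_eq_zero_iff_dvd]
  have : (g⁻¹ * h : SL(2, ℤ)) 1 0 = g 0 0 * h 1 0 - g 1 0 * h 0 0 := by
    rw [Matrix.SpecialLinearGroup.coe_mul, Matrix.SpecialLinearGroup.coe_inv,
      Matrix.adjugate_fin_two]
    simp [Matrix.mul_apply, Fin.sum_univ_two]; ring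
  rw [this]

theorem mk_eq_mk_iff_zmod {N : ℕ} (g h : SL(2, ℤ)) :
    (g : X0Coset N) = h ↔
      (g 0 0 : ZMod N) * (h 1 0 : ZMod N) = (g 1 0 : ZMod N) * (h 0 0 : ZMod N) := by
  rw [mk_eq_mk_iff, ← ZMod.intCast_zmod_eq_zero_iff_dvd]
  push_cast
  rw [sub_eq_zero]

/-- The lower unipotent matrix with first column `(1, c)`. -/
def lowerUnip (c : ℤ) : SL(2, ℤ) := ⟨!![1, 0; c, 1], by simp⟩

theorem lowerUnip_col (c : ℤ) : lowerUnip c 0 0 = 1 ∧ lowerUnip c 1 0 = c := by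
  simp [lowerUnip]

theorem exists_unit_of_sq_add {N : ℕ} (g : SL(2, ℤ)) (t : ZMod N)
    (h : (g 0 0 : ZMod N) * g 0 0 + t * (g 0 0 * g 1 0) + (g 1 0 : ZMod N) * g 1 0 = 0) :
    ∃ u : ZMod N, (g 0 0 : ZMod N) * u = 1 := by
  have hd := congrArg (Int.cast : ℤ → ZMod N) (det_eq g)
  push_cast at hd
  refine ⟨((g 0 0 : ZMod N) * g 1 1 * g 1 1 - g 1 1 * g 0 1 * g 1 0 * 2
    - g 0 1 * g 0 1 * (g 0 0 + t * g 1 0)), ?_⟩
  linear_combination ((g 0 0 : ZMod N) * g 1 1 - g 0 1 * g 1 0 + 1) * hd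
    - (g 0 1 : ZMod N) * g 0 1 * h

theorem natCard_fixed_mk (N : ℕ) (e : SL(2, ℤ)) (t : ℤ)
    (he : ∀ g : SL(2, ℤ), e • (g : X0Coset N) = g ↔
      (g 0 0 : ZMod N) * g 0 0 + t * (g 0 0 * g 1 0) + (g 1 0 : ZMod N) * g 1 0 = 0) :
    Nat.card {x : X0Coset N // e • x = x} = Nat.card {x : ZMod N // x ^ 2 + t * x + 1 = 0} := by
  symm
  let f : {x : ZMod N // x ^ 2 + t * x + 1 = 0} → {x : X0Coset N // e • x = x} := fun x =>
    ⟨(lowerUnip (x.1.cast : ℤ) : X0Coset N), (he _).mpr (by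
      rw [(lowerUnip_col _).1, (lowerUnip_col _).2, Int.cast_one, ZMod.intCast_zmod_cast]
      linear_combination x.2)⟩
  refine Nat.card_eq_of_bijective f ⟨?_, ?_⟩
  · intro x y hxy
    have := (mk_eq_mk_iff_zmod _ _).mp (congrArg Subtype.val hxy)
    rw [(lowerUnip_col _).1, (lowerUnip_col _).2, (lowerUnip_col _).1, (lowerUnip_col _).2,
      Int.cast_one, ZMod.intCast_zmod_cast, ZMod.intCast_zmod_cast, one_mul, mul_one] at this
    exact Subtype.ext this.symm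
  · rintro ⟨q, hq⟩
    induction q using QuotientGroup.induction_on with
    | _ g =>
    have hg := (he g).mp hq
    obtain ⟨u, hu⟩ := exists_unit_of_sq_add g _ hg
    refine ⟨⟨(g 1 0 : ZMod N) * u, ?_⟩, Subtype.ext ((mk_eq_mk_iff_zmod _ _).mpr ?_)⟩
    · linear_combination u * u * hg
        - ((g 0 0 : ZMod N) * u + 1 + t * u * g 1 0) * hu
    · rw [(lowerUnip_col _).1, (lowerUnip_col _).2, Int.cast_one, ZMod.intCast_zmod_cast]
      linear_combination (-(g 1 0 : ZMod N)) * hu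

/-- The fixed cosets of `S` are counted by `nuTwo N`. -/
theorem natCard_fixed_S_eq (N : ℕ) :
    Nat.card {x : X0Coset N // S • x = x} = ModularCurve.nuTwo N := by
  rw [natCard_fixed_mk N S 0]
  · simp [ModularCurve.nuTwo]
  intro g
  rw [MulAction.Quotient.smul_coe, smul_eq_mul, mk_eq_mk_iff_zmod]
  have h00 : (S * g : SL(2, ℤ)) 0 0 = -g 1 0 := by
    rw [Matrix.SpecialLinearGroup.coe_mul, coe_S]; simp [Matrix.mul_apply, Fin.sum_univ_two]
  have h10 : (S * g : SL(2, ℤ)) 1 0 = g 0 0 := by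
    rw [Matrix.SpecialLinearGroup.coe_mul, coe_S]; simp [Matrix.mul_apply, Fin.sum_univ_two]
  rw [h00, h10]
  push_cast
  constructor <;> intro h <;> linear_combination -h

/-- The fixed cosets of `R` are counted by `nuThree N`. -/
theorem natCard_fixed_R_eq (N : ℕ) :
    Nat.card {x : X0Coset N // R • x = x} = ModularCurve.nuThree N := by
  rw [natCard_fixed_mk N R 1]
  · simp [ModularCurve.nuThree]
  intro g
  rw [MulAction.Quotient.smul_coe, smul_eq_mul, mk_eq_mk_iff_zmod]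
  have h00 : (R * g : SL(2, ℤ)) 0 0 = -g 1 0 := by
    rw [Matrix.SpecialLinearGroup.coe_mul, coe_R]; simp [Matrix.mul_apply, Fin.sum_univ_two]
  have h10 : (R * g : SL(2, ℤ)) 1 0 = g 0 0 + g 1 0 := by
    rw [Matrix.SpecialLinearGroup.coe_mul, coe_R]; simp [Matrix.mul_apply, Fin.sum_univ_two]
  rw [h00, h10]
  push_cast
  constructor <;> intro h <;> linear_combination -h

end Fermat.Agent.Grp
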