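import Mathlib.Data.Nat.Totient
import Mathlib.NumberTheory.ArithmeticFunction.Misc
import Fermat.Agent.Grp.Cosets

/-!
# The index of `Γ₀(N)` is `dedekindPsi N`

The coset space is multiplicative in coprime levels and is counted directly at prime powers.
-/

namespace Fermat.Agent.Grp

open scoped MatrixGroups
open ModularGroup CongruenceSubgroup

/-- For coprime `m`, `n`, `Γ(m)` and `Γ(n)` generate `SL(2, ℤ)`. -/
theorem Gamma_sup_Gamma_eq_top {m n : ℕ} (h : Nat.Coprime m n) :
    CongruenceSubgroup.Gamma m ⊔ CongruenceSubgroup.Gamma n = ⊤ := by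
  have := Gamma_normal m
  have := Gamma_normal n
  set H := CongruenceSubgroup.Gamma m ⊔ CongruenceSubgroup.Gamma n with hH
  have hT : T ∈ H := by
    have hm : T ^ (m : ℤ) ∈ H :=
      Subgroup.mem_sup_left (by simpa using ModularGroup_T_pow_mem_Gamma (m : ℤ) m (dvd_refl _))
    have hn : T ^ (n : ℤ) ∈ H :=
      Subgroup.mem_sup_right (by simpa using ModularGroup_T_pow_mem_Gamma (n : ℤ) n (dvd_refl _))
    have hb : ((m : ℤ) * Nat.gcdA m n + n * Nat.gcdB m n) = 1 := by
      rw [← Nat.gcd_eq_gcd_ab, h.gcd_eq_one]; rfl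
    rw [← zpow_one T, ← hb, zpow_add, zpow_mul, zpow_mul]
    exact mul_mem (zpow_mem hm _) (zpow_mem hn _)
  have : H.Normal := Subgroup.sup_normal _ _
  rw [eq_top_iff, ← SpecialLinearGroup.SL2Z_generators, Subgroup.closure_le]
  intro x hx
  simp only [Set.mem_insert_iff, Set.mem_singleton_iff] at hx
  rcases hx with rfl | rfl
  · have : S = T⁻¹ * (S * T⁻¹ * S⁻¹) * T⁻¹ := by
      apply Subtype.ext
      rw [Matrix.SpecialLinearGroup.coe_mul, Matrix.SpecialLinearGroup.coe_mul, S_conj,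
        coe_T_inv, coe_S]
      ext i j; fin_cases i <;> fin_cases j <;> simp [Matrix.mul_apply, Fin.sum_univ_two]
    rw [this]
    exact mul_mem (mul_mem (inv_mem hT)
      (Subgroup.Normal.conj_mem inferInstance _ (inv_mem hT) _)) (inv_mem hT)
  · exact hT

theorem Gamma_le_Gamma0 (N : ℕ) : CongruenceSubgroup.Gamma N ≤ Gamma0 N := fun _ hx =>
  Gamma0_mem.mpr (Gamma_mem.mp hx).2.2.1

/-- The number of cosets is multiplicative in coprime levels. -/
theorem natCard_coset_mul {m n : ℕ} (h : Nat.Coprime m n) :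
    Nat.card (X0Coset (m * n)) = Nat.card (X0Coset m) * Nat.card (X0Coset n) := by
  have hle : ∀ k : ℕ, k ∣ m * n → Gamma0 (m * n) ≤ Gamma0 k := by
    intro k hk x hx
    rw [Gamma0_mem, ZMod.intCast_zmod_eq_zero_iff_dvd] at hx ⊢
    exact (Int.natCast_dvd_natCast.mpr hk).trans hx
  rw [← Nat.card_prod]
  refine Nat.card_eq_of_bijective (fun x : X0Coset (m * n) =>
    (Subgroup.quotientMapOfLE (hle m (dvd_mul_right m n)) x,
     Subgroup.quotientMapOfLE (hle n (dvd_mul_left n m)) x)) ⟨?_, ?_⟩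
  · intro x y hxy
    induction x using QuotientGroup.induction_on with
    | _ g =>
    induction y using QuotientGroup.induction_on with
    | _ k =>
    simp only [Prod.mk.injEq, Subgroup.quotientMapOfLE_apply_mk, mk_eq_mk_iff] at hxy
    rw [mk_eq_mk_iff, Nat.cast_mul]
    exact (Int.isCoprime_iff_gcd_eq_one.mpr (by simpa [Int.gcd] using h)).mul_dvd hxy.1 hxy.2
  · rintro ⟨x, y⟩
    induction x using QuotientGroup.induction_on with
    | _ g =>
    induction y using QuotientGroup.induction_on with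
    | _ k =>
    have := Gamma_normal n
    have hmem : g⁻¹ * k ∈ CongruenceSubgroup.Gamma m ⊔ CongruenceSubgroup.Gamma n := by
      rw [Gamma_sup_Gamma_eq_top h]; trivial
    obtain ⟨u, hu, v, hv, huv⟩ := Subgroup.mem_sup_of_normal_right.mp hmem
    refine ⟨((g * u : SL(2, ℤ)) : X0Coset (m * n)), ?_⟩
    simp only [Subgroup.quotientMapOfLE_apply_mk, Prod.mk.injEq]
    refine ⟨QuotientGroup.mk_mul_of_mem g (Gamma_le_Gamma0 m hu), QuotientGroup.eq.mpr ?_⟩
    have : (g * u)⁻¹ * k = v := by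
      rw [mul_inv_rev, mul_assoc, ← huv, inv_mul_cancel_left]
    rw [this]; exact Gamma_le_Gamma0 n hv

/-- The matrix with first column `(b, 1)`. -/
def upperRep (b : ℤ) : SL(2, ℤ) := ⟨!![b, -1; 1, 0], by simp⟩

theorem natCard_nonunits_prime_pow {p e : ℕ} (hp : p.Prime) (he : 0 < e) :
    Nat.card {b : ZMod (p ^ e) // ¬ IsUnit b} = p ^ (e - 1) := by
  have : NeZero (p ^ e) := ⟨(pow_pos hp.pos e).ne'⟩
  classical
  have h1 : Nat.card {b : ZMod (p ^ e) // IsUnit b} = Nat.totient (p ^ e) := by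
    rw [← ZMod.card_units_eq_totient, ← Nat.card_eq_fintype_card]
    symm
    exact Nat.card_eq_of_bijective (fun u : (ZMod (p ^ e))ˣ => ⟨(u : ZMod (p ^ e)), u.isUnit⟩)
      ⟨fun a b hab => Units.ext (congrArg Subtype.val hab),
        fun b => ⟨b.2.unit, Subtype.ext b.2.unit_spec⟩⟩
  have h2 := Nat.card_congr (Equiv.sumCompl fun b : ZMod (p ^ e) => IsUnit b)
  rw [Nat.card_sum, h1, Nat.card_zmod, Nat.totient_prime_pow hp he] at h2
  obtain ⟨q, rfl⟩ : ∃ q, p = q + 1 := ⟨p - 1, by have := hp.pos; omega⟩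
  obtain ⟨f, rfl⟩ : ∃ f, e = f + 1 := ⟨e - 1, by omega⟩
  simp only [Nat.add_sub_cancel] at h2 ⊢
  rw [pow_succ (q + 1) f] at h2
  rw [mul_add_one] at h2
  exact Nat.add_left_cancel h2

/-- `Γ₀(p ^ e)` has index `p ^ e + p ^ (e - 1)`. -/
theorem natCard_coset_prime_pow {p e : ℕ} (hp : p.Prime) (he : 0 < e) :
    Nat.card (X0Coset (p ^ e)) = p ^ e + p ^ (e - 1) := by
  have : NeZero (p ^ e) := ⟨(pow_pos hp.pos e).ne'⟩
  have : Fact p.Prime := ⟨hp⟩
  have hdvd : ∀ x : ℤ, IsUnit (x : ZMod (p ^ e)) ↔ ¬ (p : ℤ) ∣ x := by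
    intro x
    rw [ZMod.coe_int_isUnit_iff_isCoprime, Nat.cast_pow, IsCoprime.pow_left_iff he,
      (Nat.prime_iff_prime_int.mp hp).coprime_iff_not_dvd]
  symm
  rw [← natCard_nonunits_prime_pow hp he]
  conv_lhs => arg 1; rw [← Nat.card_zmod (p ^ e)]
  rw [← Nat.card_sum]
  refine Nat.card_eq_of_bijective
    (Sum.elim (fun c : ZMod (p ^ e) => (lowerUnip (c.cast : ℤ) : X0Coset (p ^ e)))
      (fun b => (upperRep (b.1.cast : ℤ) : X0Coset (p ^ e)))) ⟨?_, ?_⟩
  · rintro (c | b) (c' | b') h <;> dsimp only [Sum.elim_inl, Sum.elim_inr] at h <;>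
      rw [mk_eq_mk_iff_zmod] at h <;> simp [lowerUnip, upperRep] at h
    · exact congrArg _ h.symm
    · exact absurd (IsUnit.of_mul_eq_one_right _ h.symm) b'.2
    · exact absurd (IsUnit.of_mul_eq_one _ h) b.2
    · exact congrArg _ (Subtype.ext h)
  · intro q
    induction q using QuotientGroup.induction_on with
    | _ g =>
    by_cases ha : IsUnit (g 0 0 : ZMod (p ^ e))
    · obtain ⟨u, hu⟩ := ha
      refine ⟨Sum.inl ((g 1 0 : ZMod (p ^ e)) * (↑u⁻¹)), (mk_eq_mk_iff_zmod _ _).mpr ?_⟩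
      simp only [lowerUnip]
      simp
      rw [← hu, mul_assoc, Units.inv_mul, mul_one]
    · have hc : IsUnit (g 1 0 : ZMod (p ^ e)) := by
        rw [hdvd] at ha ⊢
        intro hc
        refine (Nat.prime_iff_prime_int.mp hp).not_dvd_one ?_
        rw [← det_eq g]
        exact dvd_sub (Dvd.dvd.mul_right (not_not.mp ha) _) (Dvd.dvd.mul_left hc _)
      obtain ⟨u, hu⟩ := hc
      refine ⟨Sum.inr ⟨(g 0 0 : ZMod (p ^ e)) * (↑u⁻¹), fun h => ha ?_⟩,
        (mk_eq_mk_iff_zmod _ _).mpr ?_⟩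
      · simpa [Units.isUnit_mul_units] using h
      · simp only [upperRep]
        simp
        rw [← hu, mul_assoc, Units.inv_mul, mul_one]

/-- The indicator of squarefree numbers. -/
def sqfIndicator : ArithmeticFunction ℕ :=
  ⟨fun n => if Squarefree n then 1 else 0, by simp⟩

theorem sqfIndicator_isMultiplicative : sqfIndicator.IsMultiplicative := by
  refine ⟨by simp [sqfIndicator], fun {m n} h => ?_⟩
  simp only [sqfIndicator, ArithmeticFunction.coe_mk, Nat.squarefree_mul h]
  split_ifs <;> simp_all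

theorem dedekindPsi_eq_conv (n : ℕ) :
    ModularCurve.dedekindPsi n = (sqfIndicator * ArithmeticFunction.id) n := by
  rw [ArithmeticFunction.mul_apply,
    Nat.sum_divisorsAntidiagonal (f := fun a b => sqfIndicator a * ArithmeticFunction.id b),
    ModularCurve.dedekindPsi, Finset.sum_filter]
  refine Finset.sum_congr rfl fun d _ => ?_
  simp [sqfIndicator]

theorem dedekindPsi_prime_pow {p e : ℕ} (hp : p.Prime) (he : 0 < e) :
    ModularCurve.dedekindPsi (p ^ e) = p ^ e + p ^ (e - 1) := by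
  rw [ModularCurve.dedekindPsi, Finset.sum_filter, Nat.sum_divisors_prime_pow hp]
  obtain ⟨f, rfl⟩ : ∃ f, e = f + 1 := ⟨e - 1, by omega⟩
  rw [Finset.sum_range_succ', Finset.sum_range_succ']
  have : ∀ k : ℕ, (if Squarefree (p ^ (k + 1 + 1)) then p ^ (f + 1) / p ^ (k + 1 + 1) else 0) = 0 :=
    fun k => if_neg (by
      rw [Nat.squarefree_pow_iff hp.ne_one (by omega)]; omega)
  simp only [this, Finset.sum_const_zero, zero_add, pow_zero, squarefree_one, if_true, Nat.div_one,
    pow_one, hp.squarefree, Nat.add_sub_cancel]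
  rw [pow_succ, Nat.mul_div_cancel _ hp.pos, add_comm]

theorem natCard_coset (N : ℕ) [NeZero N] :
    Nat.card (X0Coset N) = ModularCurve.dedekindPsi N := by
  have hN := NeZero.ne N
  clear ‹NeZero N›
  induction N using Nat.recOnPosPrimePosCoprime with
  | prime_pow p n hp hn => rw [natCard_coset_prime_pow hp hn, dedekindPsi_prime_pow hp hn]
  | zero => exact absurd rfl hN
  | one =>
    rw [ModularCurve.dedekindPsi_one, Nat.card_eq_one_iff_unique]
    refine ⟨⟨fun x y => ?_⟩, ⟨((1 : SL(2, ℤ)) : X0Coset 1)⟩⟩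
    induction x using QuotientGroup.induction_on with
    | _ g =>
    induction y using QuotientGroup.induction_on with
    | _ h => exact (mk_eq_mk_iff g h).mpr (by simp)
  | coprime a b ha hb hab iha ihb =>
    rw [natCard_coset_mul hab, iha (by omega), ihb (by omega), dedekindPsi_eq_conv,
      dedekindPsi_eq_conv, dedekindPsi_eq_conv,
      (sqfIndicator_isMultiplicative.mul ArithmeticFunction.isMultiplicative_id).map_mul_of_coprime
        hab]

/-- The index of `Γ₀(N)` is `dedekindPsi N`. -/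
theorem index_Gamma0_eq (N : ℕ) [NeZero N] : (Gamma0 N).index = ModularCurve.dedekindPsi N :=
  natCard_coset N

end Fermat.Agent.Grp
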