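import Mathlib.Data.Int.GCD
import Mathlib.Data.ZMod.QuotientGroup
import Mathlib.GroupTheory.CoprodI
import Fermat.Agent.Grp.Elements

/-!
# `PSL(2, ℤ)` is the free product `ℤ/2 * ℤ/3`

The generators are the images of `S` and `R = ST`; ping-pong is played on the sign of the product
of the entries of the first column. This gives homomorphisms out of `SL(2, ℤ)` from two elements.
-/

namespace Fermat.Agent.Grp

open scoped MatrixGroups Pointwise
open ModularGroup

/-- The subgroup `{1, -1}`. -/
def negOneSub : Subgroup SL(2, ℤ) where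
  carrier := {1, -1}
  one_mem' := Or.inl rfl
  mul_mem' := by
    rintro a b (rfl | rfl) (rfl | rfl) <;> simp
  inv_mem' := by
    rintro a (rfl | rfl)
    · simp
    · right
      exact inv_eq_of_mul_eq_one_right (by simp)

/-- The centre `{1, -1}` is normal. -/
instance negOneSub_normal : negOneSub.Normal := ⟨by
  rintro x (rfl | rfl) g
  · simp
  · right; simp⟩

/-- The product of the two entries of the first column, on `SL(2,ℤ) / ±1`. -/
def colSign : SL(2, ℤ) ⧸ negOneSub → ℤ :=
  Quotient.lift (fun g : SL(2, ℤ) => g 0 0 * g 1 0) (by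
    intro a b hab
    rcases QuotientGroup.leftRel_apply.mp hab with h | h
    · rw [← inv_mul_eq_one.mp h]
    · have : b = -a := by rw [← mul_inv_cancel_left a b, h]; simp
      rw [this]; simp)

theorem colSign_mk (g : SL(2, ℤ)) : colSign (g : SL(2, ℤ) ⧸ negOneSub) = g 0 0 * g 1 0 := rfl

/-- The two players of ping-pong. -/
def pingPongSet : Bool → Set (SL(2, ℤ) ⧸ negOneSub)
  | false => {x | 0 < colSign x}
  | true => {x | colSign x < 0}

/-- The orders `2` and `3` of the two generators. -/
def factorOrder : Bool → ℕ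
  | false => 2
  | true => 3

/-- The two generators `S` and `R`. -/
def factorGen : Bool → SL(2, ℤ)
  | false => S
  | true => R

/-- The two free factors `ℤ/2` and `ℤ/3`. -/
abbrev FreeFactor (i : Bool) : Type := Multiplicative (ZMod (factorOrder i))

/-- The hom out of a cyclic group given by an element whose `n`-th power is trivial. -/
noncomputable def homOfPowEqOne {P : Type*} [Group P] (n : ℕ) (x : P) (hx : x ^ n = 1) :
    Multiplicative (ZMod n) →* P :=
  AddMonoidHom.toMultiplicativeLeft (ZMod.lift n ⟨zmultiplesHom _ (Additive.ofMul x), by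
    rw [zmultiplesHom_apply, natCast_zsmul, ← ofMul_pow, hx, ofMul_one]⟩)

theorem homOfPowEqOne_intCast {P : Type*} [Group P] (n : ℕ) (x : P) (hx : x ^ n = 1) (k : ℤ) :
    homOfPowEqOne n x hx (Multiplicative.ofAdd (k : ZMod n)) = x ^ k := by
  show Additive.toMul (ZMod.lift n ⟨zmultiplesHom _ (Additive.ofMul x), _⟩ (k : ZMod n)) = x ^ k
  rw [ZMod.lift_coe, zmultiplesHom_apply, toMul_zsmul, toMul_ofMul]

theorem homOfPowEqOne_one {P : Type*} [Group P] (n : ℕ) (x : P) (hx : x ^ n = 1) :
    homOfPowEqOne n x hx (Multiplicative.ofAdd 1) = x := by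
  simpa using homOfPowEqOne_intCast n x hx 1

theorem factorGen_pow (i : Bool) :
    ((factorGen i : SL(2, ℤ)) : SL(2, ℤ) ⧸ negOneSub) ^ factorOrder i = 1 := by
  rw [← QuotientGroup.mk_pow, QuotientGroup.eq_one_iff]
  cases i
  · right; show S ^ 2 = -1; rw [pow_two, S_mul_S]
  · right; exact R_pow_three

/-- The inclusion of a free factor in `PSL(2, ℤ)`. -/
noncomputable def factorHom (i : Bool) : FreeFactor i →* SL(2, ℤ) ⧸ negOneSub :=
  homOfPowEqOne (factorOrder i) _ (factorGen_pow i)

theorem colSign_S_mul (g : SL(2, ℤ)) :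
    colSign ((S : SL(2, ℤ) ⧸ negOneSub) * g) = -(g 0 0 * g 1 0) := by
  rw [← QuotientGroup.mk_mul, colSign_mk, Matrix.SpecialLinearGroup.coe_mul, coe_S]
  simp [Matrix.mul_apply, Fin.sum_univ_two]; ring

theorem colSign_R_mul (g : SL(2, ℤ)) :
    colSign ((R : SL(2, ℤ) ⧸ negOneSub) * g) = -(g 0 0 * g 1 0) - g 1 0 * g 1 0 := by
  rw [← QuotientGroup.mk_mul, colSign_mk, Matrix.SpecialLinearGroup.coe_mul, coe_R]
  simp [Matrix.mul_apply, Fin.sum_univ_two]; ring

theorem colSign_R_sq_mul (g : SL(2, ℤ)) :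
    colSign (((R : SL(2, ℤ) ⧸ negOneSub)) ^ 2 * g) = -(g 0 0 * g 1 0) - g 0 0 * g 0 0 := by
  rw [← QuotientGroup.mk_pow, ← QuotientGroup.mk_mul, colSign_mk,
    Matrix.SpecialLinearGroup.coe_mul, coe_R_sq]
  simp [Matrix.mul_apply, Fin.sum_univ_two]; ring

/-- Ping-pong: `ℤ/2 * ℤ/3 → PSL(2, ℤ)` is bijective. -/
theorem factorHom_lift_bijective : Function.Bijective (Monoid.CoprodI.lift factorHom) := by
  constructor
  · refine Monoid.CoprodI.lift_injective_of_ping_pong factorHom (Or.inr ⟨true, ?_⟩) pingPongSet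
      ?_ ?_ ?_
    · show 3 ≤ Cardinal.mk (Multiplicative (ZMod 3))
      rw [Cardinal.mk_fintype]; simp
    · intro i; cases i
      · exact ⟨((T * S : SL(2, ℤ)) : SL(2, ℤ) ⧸ negOneSub), by
          show (0 : ℤ) < colSign _
          rw [colSign_mk, Matrix.SpecialLinearGroup.coe_mul, coe_S, coe_T]; simp⟩
      · exact ⟨((R ^ 2 : SL(2, ℤ)) : SL(2, ℤ) ⧸ negOneSub), by
          show colSign _ < (0 : ℤ)
          rw [colSign_mk, coe_R_sq]; simp⟩
    · intro i j hij
      rw [Function.onFun, Set.disjoint_left]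
      intro x hx hx'
      cases i <;> cases j <;> simp [pingPongSet] at hij hx hx' <;> omega
    · intro i j hij h hne
      rintro _ ⟨x, hx, rfl⟩
      induction x using QuotientGroup.induction_on with
      | _ g =>
      cases i <;> cases j <;> simp at hij
      · obtain rfl : h = Multiplicative.ofAdd 1 :=
          (by decide : ∀ h : Multiplicative (ZMod 2), h ≠ 1 → h = Multiplicative.ofAdd 1) h hne
        rw [factorHom, homOfPowEqOne_one]
        simp only [pingPongSet, colSign_mk, Set.mem_ofPred_eq, factorGen, smul_eq_mul,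
          colSign_S_mul] at hx ⊢
        linarith
      · have : h = Multiplicative.ofAdd 1 ∨ h = Multiplicative.ofAdd 1 ^ 2 :=
          (by decide : ∀ h : Multiplicative (ZMod 3), h ≠ 1 →
            h = Multiplicative.ofAdd 1 ∨ h = Multiplicative.ofAdd 1 ^ 2) h hne
        rcases this with rfl | rfl <;> rw [factorHom] <;>
          simp only [map_pow, homOfPowEqOne_one, pingPongSet, colSign_mk, Set.mem_ofPred_eq,
            factorGen, smul_eq_mul, colSign_R_mul, colSign_R_sq_mul] at hx ⊢ <;>
          nlinarith [mul_self_nonneg (g 1 0), mul_self_nonneg (g 0 0)]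
  · rw [← MonoidHom.range_eq_top, eq_top_iff,
      ← Subgroup.map_top_of_surjective (QuotientGroup.mk' negOneSub)
        (QuotientGroup.mk'_surjective _),
      ← closure_S_R, MonoidHom.map_closure, Subgroup.closure_le]
    rintro _ ⟨x, hx, rfl⟩
    simp only [Set.mem_insert_iff, Set.mem_singleton_iff] at hx
    have key : ∀ i, ((factorGen i : SL(2, ℤ)) : SL(2, ℤ) ⧸ negOneSub) ∈
        (Monoid.CoprodI.lift factorHom).range := fun i =>
      ⟨Monoid.CoprodI.of (i := i) (Multiplicative.ofAdd 1), by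
        simp [factorHom, homOfPowEqOne_one]⟩
    rcases hx with rfl | rfl
    · exact key false
    · exact key true

/-- `PSL(2,ℤ) ≅ ℤ/2 * ℤ/3`. -/
noncomputable def pslEquiv : Monoid.CoprodI FreeFactor ≃* SL(2, ℤ) ⧸ negOneSub :=
  MulEquiv.ofBijective _ factorHom_lift_bijective

/-- Two elements with `s ^ 2 = r ^ 3 = 1` give a homomorphism out of `SL(2, ℤ)`. -/
theorem exists_lift_S_R {P : Type*} [Group P] (s r : P) (hs : s ^ 2 = 1) (hr : r ^ 3 = 1) :
    ∃ f : SL(2, ℤ) →* P, f S = s ∧ f R = r := by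
  let f₀ : ∀ i, FreeFactor i →* P := fun i => match i with
    | false => homOfPowEqOne 2 s hs
    | true => homOfPowEqOne 3 r hr
  refine ⟨((Monoid.CoprodI.lift f₀).comp pslEquiv.symm.toMonoidHom).comp
    (QuotientGroup.mk' negOneSub), ?_, ?_⟩
  · have h : pslEquiv.symm (S : SL(2, ℤ) ⧸ negOneSub) =
        Monoid.CoprodI.of (i := false) (Multiplicative.ofAdd 1) := by
      rw [MulEquiv.symm_apply_eq]
      simp [pslEquiv, factorHom, homOfPowEqOne_one, factorGen]
    simp [h, f₀]
    exact homOfPowEqOne_one 2 s hs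
  · have h : pslEquiv.symm (R : SL(2, ℤ) ⧸ negOneSub) =
        Monoid.CoprodI.of (i := true) (Multiplicative.ofAdd 1) := by
      rw [MulEquiv.symm_apply_eq]
      simp [pslEquiv, factorHom, homOfPowEqOne_one, factorGen]
    simp [h, f₀]
    exact homOfPowEqOne_one 3 r hr

end Fermat.Agent.Grp
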