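import Mathlib.Algebra.BigOperators.GroupWithZero.Action
import Mathlib.GroupTheory.GroupAction.Period
import Mathlib.GroupTheory.GroupAction.Quotient
import Fermat.Agent.Grp.Presentation

/-!
# Cocycles on a coset space and their values at `S`

By Shapiro's lemma a homomorphism on `Γ` is a cocycle of `SL(2, ℤ)` with values in functions on
`SL(2, ℤ) ⧸ Γ`. Normalised to vanish at `R`, it is given by its values at `S` (edge data); the
cl condition becomes vanishing sums around the `T`-orbits (faces).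
-/

namespace Fermat.Agent.Grp

open scoped MatrixGroups
open ModularGroup

variable {Γ : Subgroup SL(2, ℤ)} {A : Type*} [AddCommGroup A]

/-- Cocycles of `SL(2,ℤ)` with values in functions on the coset space. -/
def IsCoc (c : SL(2, ℤ) → (SL(2, ℤ) ⧸ Γ) → A) : Prop := ∀ g h x, c (g * h) x = c g (h • x) + c h x

/-- Cocycles vanishing on pairs (fixed point, element with `|trace| ≤ 2`). -/
def IsClCoc (c : SL(2, ℤ) → (SL(2, ℤ) ⧸ Γ) → A) : Prop :=
  IsCoc c ∧ ∀ g x, g • x = x → |tr g| ≤ 2 → c g x = 0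

theorem IsCoc.one {c : SL(2, ℤ) → (SL(2, ℤ) ⧸ Γ) → A} (hc : IsCoc c) (x : SL(2, ℤ) ⧸ Γ) :
    c 1 x = 0 := by
  have h := hc 1 1 x
  rw [one_smul, mul_one] at h
  simpa using h

theorem IsCoc.inv {c : SL(2, ℤ) → (SL(2, ℤ) ⧸ Γ) → A} (hc : IsCoc c) (g : SL(2, ℤ))
    (x : SL(2, ℤ) ⧸ Γ) :
    c g⁻¹ x = -c g (g⁻¹ • x) := by
  have h := hc g g⁻¹ x
  rw [mul_inv_cancel, hc.one] at h
  exact eq_neg_of_add_eq_zero_right h.symm

theorem IsCoc.conj {c : SL(2, ℤ) → (SL(2, ℤ) ⧸ Γ) → A} (hc : IsCoc c) (g e : SL(2, ℤ))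
    (x : SL(2, ℤ) ⧸ Γ)
    (he : e • (g⁻¹ • x) = g⁻¹ • x) : c (g * e * g⁻¹) x = c e (g⁻¹ • x) := by
  rw [hc, hc, hc.inv, he]
  abel

theorem IsCoc.pow {c : SL(2, ℤ) → (SL(2, ℤ) ⧸ Γ) → A} (hc : IsCoc c) (g : SL(2, ℤ))
    (n : ℕ) (x : SL(2, ℤ) ⧸ Γ) :
    c (g ^ n) x = ∑ i ∈ Finset.range n, c g (g ^ i • x) := by
  induction n with
  | zero => simpa using hc.one x
  | succ n ih => rw [pow_succ', hc, ih, Finset.sum_range_succ, add_comm]

/-- A cocycle is determined by its values at `S` and `R`. -/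
theorem IsCoc.ext {c c' : SL(2, ℤ) → (SL(2, ℤ) ⧸ Γ) → A} (hc : IsCoc c) (hc' : IsCoc c')
    (hS : ∀ x, c S x = c' S x) (hR : ∀ x, c R x = c' R x) : c = c' := by
  funext g
  have hg : g ∈ Subgroup.closure {S, R} := by rw [closure_S_R]; trivial
  induction hg using Subgroup.closure_induction with
  | mem g hg =>
    simp only [Set.mem_insert_iff, Set.mem_singleton_iff] at hg
    rcases hg with rfl | rfl
    · exact funext hS
    · exact funext hR
  | one => funext x; rw [hc.one, hc'.one]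
  | mul g h _ _ hg hh => funext x; rw [hc, hc', hg, hh]
  | inv g _ hg => funext x; rw [hc.inv, hc'.inv, hg]

/-- The coboundary of a function. -/
def cobound (f : (SL(2, ℤ) ⧸ Γ) → A) : SL(2, ℤ) → (SL(2, ℤ) ⧸ Γ) → A := fun g x => f (g • x) - f x

theorem isCoc_cobound (f : (SL(2, ℤ) ⧸ Γ) → A) : IsCoc (cobound f) := by
  intro g h x; simp only [cobound, mul_smul]; abel

theorem IsCoc.add {c c' : SL(2, ℤ) → (SL(2, ℤ) ⧸ Γ) → A} (hc : IsCoc c) (hc' : IsCoc c') :
    IsCoc (c + c') := by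
  intro g h x; simp only [Pi.add_apply, hc g h x, hc' g h x]; abel

theorem IsCoc.smul {k : Type*} [Semiring k] [Module k A]
    {c : SL(2, ℤ) → (SL(2, ℤ) ⧸ Γ) → A} (hc : IsCoc c)
    (t : k) : IsCoc (t • c) := by
  intro g h x; simp only [Pi.smul_apply, hc g h x, smul_add]

theorem IsClCoc.cobound_add {c : SL(2, ℤ) → (SL(2, ℤ) ⧸ Γ) → A} (hc : IsClCoc c)
    (f : (SL(2, ℤ) ⧸ Γ) → A) :
    IsClCoc (c + cobound f) :=
  ⟨hc.1.add (isCoc_cobound f), fun g x hgx htr => by simp [cobound, hgx, hc.2 g x hgx htr]⟩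

variable (hneg : (-1 : SL(2, ℤ)) ∈ Γ)

include hneg in
theorem neg_one_smul_coset (x : SL(2, ℤ) ⧸ Γ) : (-1 : SL(2, ℤ)) • x = x := by
  induction x using QuotientGroup.induction_on with
  | _ g =>
    rw [MulAction.Quotient.smul_coe, smul_eq_mul, QuotientGroup.eq]
    have : ((-1 : SL(2, ℤ)) * g)⁻¹ * g = -1 := by
      rw [mul_inv_rev, show (-1 : SL(2, ℤ))⁻¹ = -1 from inv_eq_of_mul_eq_one_right (by simp)]
      simp
    rw [this]; exact hneg

include hneg in
theorem S_smul_S_smul (x : SL(2, ℤ) ⧸ Γ) : S • S • x = x := by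
  rw [← mul_smul, S_mul_S, neg_one_smul_coset hneg]

include hneg in
theorem R_pow_three_smul (x : SL(2, ℤ) ⧸ Γ) : R ^ 3 • x = x := by
  rw [R_pow_three, neg_one_smul_coset hneg]

/-- Antisymmetric functions vanishing at the fixed points of `S`. -/
def altSpace (k : Type*) [Semiring k] (Γ : Subgroup SL(2, ℤ)) (A : Type*) [AddCommGroup A]
    [Module k A] : Submodule k ((SL(2, ℤ) ⧸ Γ) → A) where
  carrier := {a | ∀ x, a (S • x) = -a x ∧ (S • x = x → a x = 0)}
  zero_mem' := fun x => by simp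
  add_mem' := by
    intro a b ha hb x
    refine ⟨?_, fun h => ?_⟩
    · simp only [Pi.add_apply, (ha x).1, (hb x).1]; abel
    · simp only [Pi.add_apply, (ha x).2 h, (hb x).2 h, add_zero]
  smul_mem' := by
    intro t a ha x
    exact ⟨by simp [(ha x).1], fun h => by simp [(ha x).2 h]⟩

/-- The permutation of `(SL(2, ℤ) ⧸ Γ) × A` through which a normalised cocycle is constructed. -/
def stepPerm (g : SL(2, ℤ)) (a : (SL(2, ℤ) ⧸ Γ) → A) : Equiv.Perm ((SL(2, ℤ) ⧸ Γ) × A) where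
  toFun p := (g • p.1, p.2 + a p.1)
  invFun p := (g⁻¹ • p.1, p.2 - a (g⁻¹ • p.1))
  left_inv p := by simp
  right_inv p := by simp

theorem stepPerm_apply (g : SL(2, ℤ)) (a : (SL(2, ℤ) ⧸ Γ) → A) (p : (SL(2, ℤ) ⧸ Γ) × A) :
    stepPerm g a p = (g • p.1, p.2 + a p.1) := rfl

include hneg in
/-- A normalised cocycle exists with any antisymmetric values at `S`. -/
theorem exists_coc (a : (SL(2, ℤ) ⧸ Γ) → A) (ha : ∀ x, a (S • x) = -a x) :
    ∃ c : SL(2, ℤ) → (SL(2, ℤ) ⧸ Γ) → A, IsCoc c ∧ (∀ x, c S x = a x) ∧ ∀ x, c R x = 0 := by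
  obtain ⟨F, hFS, hFR⟩ := exists_lift_S_R (stepPerm S a)
      (stepPerm (A := A) R (0 : (SL(2, ℤ) ⧸ Γ) → A))
    (by
      ext p
      · simp [pow_two, stepPerm_apply, S_smul_S_smul hneg]
      · simp [pow_two, stepPerm_apply, ha])
    (by
      ext p
      · have h := R_pow_three_smul hneg p.1
        rw [pow_three, mul_smul, mul_smul] at h
        simp [pow_three, stepPerm_apply, h]
      · simp [pow_three, stepPerm_apply])
  have key : ∀ g x t, F g (x, t) = (g • x, t + (F g (x, 0)).2) := by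
    intro g
    have hg : g ∈ Subgroup.closure {S, R} := by rw [closure_S_R]; trivial
    induction hg using Subgroup.closure_induction with
    | mem g hg =>
      simp only [Set.mem_insert_iff, Set.mem_singleton_iff] at hg
      rcases hg with rfl | rfl <;> intro x t <;> simp [hFS, hFR, stepPerm_apply]
    | one => intro x t; simp
    | mul g h _ _ hg hh =>
      intro x t
      rw [map_mul, Equiv.Perm.mul_apply, Equiv.Perm.mul_apply, hh x t, hh x 0,
        hg (h • x) (t + _), hg (h • x) (0 + _), mul_smul]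
      simp [add_assoc]
    | inv g _ hg =>
      intro x t
      have h : ∀ t, (F g⁻¹) (x, t) = (g⁻¹ • x, t - (F g (g⁻¹ • x, 0)).2) := fun t => by
        rw [map_inv, Equiv.Perm.inv_def, Equiv.symm_apply_eq, hg, smul_inv_smul]; simp
      rw [h t, h 0]; simp [sub_eq_add_neg]
  refine ⟨fun g x => (F g (x, 0)).2, ?_, fun x => by simp [hFS, stepPerm_apply],
    fun x => by simp [hFR, stepPerm_apply]⟩
  intro g h x
  simp only
  rw [map_mul, Equiv.Perm.mul_apply, key h x 0, key g _ (0 + _)]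
  simp [add_comm]

section

variable {c : SL(2, ℤ) → (SL(2, ℤ) ⧸ Γ) → A} (hc : IsCoc c)
include hc

theorem IsCoc.neg_one_eq_zero (hR : ∀ x, c R x = 0) (x : SL(2, ℤ) ⧸ Γ) : c (-1) x = 0 := by
  rw [← R_pow_three, hc.pow]; simp [hR]

theorem IsCoc.neg_mul_apply (hR : ∀ x, c R x = 0) (g : SL(2, ℤ))
    (x : SL(2, ℤ) ⧸ Γ) : c (-g) x = c g x := by
  rw [← neg_one_mul g, hc, hc.neg_one_eq_zero hR, zero_add]

theorem IsCoc.T_apply (hR : ∀ x, c R x = 0) (x : SL(2, ℤ) ⧸ Γ) : c T x = c S (R • x) := by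
  have h1 : c R x = c S (T • x) + c T x := by rw [← hc]; rfl
  rw [hR] at h1
  have h2 := hc S S (T • x)
  rw [S_mul_S, hc.neg_one_eq_zero hR] at h2
  have h3 : R • x = S • T • x := by rw [← mul_smul]; rfl
  rw [h3, eq_neg_of_add_eq_zero_right h1.symm, eq_neg_of_add_eq_zero_left h2.symm]

end

/-- The orbits of `T` on the coset space (faces). -/
abbrev FaceOrbit (Γ : Subgroup SL(2, ℤ)) : Type :=
  MulAction.orbitRel.Quotient (Subgroup.zpowers T) (SL(2, ℤ) ⧸ Γ)

/-- The orbits of `R` on the coset space (vertices). -/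
abbrev VertOrbit (Γ : Subgroup SL(2, ℤ)) : Type :=
  MulAction.orbitRel.Quotient (Subgroup.zpowers R) (SL(2, ℤ) ⧸ Γ)

section

variable [Γ.FiniteIndex]

theorem period_T_pos (x : SL(2, ℤ) ⧸ Γ) : 0 < MulAction.period T x := by
  rw [MulAction.period_eq_minimalPeriod]
  exact Function.minimalPeriod_pos_of_mem_periodicPts ((MulAction.injective T).mem_periodicPts x)

theorem sum_range_period_T [Fintype (SL(2, ℤ) ⧸ Γ)] [DecidableEq (FaceOrbit Γ)]
    (f : (SL(2, ℤ) ⧸ Γ) → A) (x : SL(2, ℤ) ⧸ Γ) :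
    ∑ i ∈ Finset.range (MulAction.period T x), f (T ^ i • x)
      = ∑ y ∈ Finset.univ.filter
          (fun y : (SL(2, ℤ) ⧸ Γ) => (Quotient.mk'' y : FaceOrbit Γ) = Quotient.mk'' x), f y := by
  classical
  rw [← Finset.sum_image (g := fun i => T ^ i • x)]
  · refine Finset.sum_congr ?_ fun _ _ => rfl
    ext y
    simp only [Finset.mem_image, Finset.mem_range, Finset.mem_filter, Finset.mem_univ, true_and]
    rw [Quotient.eq'', MulAction.orbitRel_apply, MulAction.mem_orbit_iff]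
    constructor
    · rintro ⟨i, _, rfl⟩
      exact ⟨⟨T ^ (i : ℤ), i, rfl⟩, by show T ^ (i : ℤ) • x = T ^ i • x; rw [zpow_natCast]⟩
    · rintro ⟨⟨_, n, rfl⟩, rfl⟩
      have hpos : (0 : ℤ) < MulAction.period T x := by exact_mod_cast period_T_pos x
      refine ⟨(n % MulAction.period T x).toNat, ?_, ?_⟩
      · have h1 := Int.emod_lt_of_pos n hpos
        have h2 := Int.emod_nonneg n hpos.ne'
        omega
      · show T ^ (n % MulAction.period T x).toNat • x = T ^ n • x
        rw [← zpow_natCast, Int.toNat_of_nonneg (Int.emod_nonneg n hpos.ne'),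
          MulAction.zpow_mod_period_smul]
  · intro i hi j hj hij
    have hi' := Finset.mem_range.mp hi
    have hj' := Finset.mem_range.mp hj
    simp only at hij
    wlog hlt : i ≤ j generalizing i j with H
    · exact (H hj hi hij.symm hj' hi' (by omega)).symm
    have h : T ^ (j - i) • x = x := MulAction.injective (T ^ i) (by
      simp only
      rw [← mul_smul, ← pow_add, Nat.add_sub_cancel' hlt]; exact hij.symm)
    have h' := Nat.eq_zero_of_dvd_of_lt (MulAction.pow_smul_eq_iff_period_dvd.mp h) (by omega)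
    omega

end

/-- The face map `a ↦ (T-orbit ↦ ∑ a (R x))`. -/
noncomputable def faceMap (k : Type*) [Semiring k] (Γ : Subgroup SL(2, ℤ)) [Γ.FiniteIndex]
    (A : Type*) [AddCommGroup A] [Module k A] :
    ((SL(2, ℤ) ⧸ Γ) → A) →ₗ[k] (FaceOrbit Γ → A) :=
  letI := Fintype.ofFinite (SL(2, ℤ) ⧸ Γ)
  letI := Classical.decEq (FaceOrbit Γ)
  { toFun := fun a q => ∑ x ∈ Finset.univ.filter
      (fun x : SL(2, ℤ) ⧸ Γ => (Quotient.mk'' x : FaceOrbit Γ) = q), a (R • x)
    map_add' := fun a b => by funext q; simp [Finset.sum_add_distrib]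
    map_smul' := fun t a => by funext q; simp [Finset.smul_sum] }

/-- The space of edge data. -/
noncomputable def edgeSpace (k : Type*) [Semiring k] (Γ : Subgroup SL(2, ℤ)) [Γ.FiniteIndex]
    (A : Type*) [AddCommGroup A] [Module k A] : Submodule k ((SL(2, ℤ) ⧸ Γ) → A) :=
  altSpace k Γ A ⊓ LinearMap.ker (faceMap k Γ A)

section

variable {k : Type*} [Semiring k] [Module k A] [Γ.FiniteIndex]

theorem IsCoc.T_pow_period (c : SL(2, ℤ) → (SL(2, ℤ) ⧸ Γ) → A) (hc : IsCoc c)
    (hR : ∀ x, c R x = 0) (x : SL(2, ℤ) ⧸ Γ) :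
    c (T ^ MulAction.period T x) x = faceMap k Γ A (fun y => c S y) (Quotient.mk'' x) := by
  let := Fintype.ofFinite (SL(2, ℤ) ⧸ Γ)
  let := Classical.decEq (FaceOrbit Γ)
  rw [hc.pow]
  simp only [hc.T_apply hR]
  exact sum_range_period_T (fun y => c S (R • y)) x

include hneg in
/-- The cocycle of edge data satisfies the cl condition. -/
theorem isClCoc_of_mem_edgeSpace {c : SL(2, ℤ) → (SL(2, ℤ) ⧸ Γ) → A} (hc : IsCoc c)
    (hR : ∀ x, c R x = 0)
    (ha : (fun y => c S y) ∈ edgeSpace k Γ A) : IsClCoc c := by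
  refine ⟨hc, fun γ x hx htr => ?_⟩
  obtain ⟨g, e, hge, he⟩ := isBasicUpToConj_of_abs_tr_le_two γ htr
  have hx' : (g * e * g⁻¹) • x = x := by
    rcases hge with rfl | rfl
    · exact hx
    · rwa [← neg_one_mul (g * e * g⁻¹), mul_smul, neg_one_smul_coset hneg] at hx
  have hfix : e • (g⁻¹ • x) = g⁻¹ • x := by
    conv_rhs => rw [← hx']
    simp [mul_smul]
  have hγ : c γ x = c e (g⁻¹ • x) := by
    rcases hge with rfl | rfl
    · exact hc.conj g e x hfix
    · rw [hc.neg_mul_apply hR, hc.conj g e x hfix]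
  rw [hγ]
  generalize g⁻¹ • x = y at hfix
  rcases he with ⟨n, rfl⟩ | rfl | rfl | rfl
  · obtain ⟨m, hm⟩ := MulAction.zpow_smul_eq_iff_period_dvd.mp hfix
    have hp : T ^ MulAction.period T y • y = y := MulAction.pow_period_smul T y
    have h0 : c (T ^ MulAction.period T y) y = 0 := by
      rw [IsCoc.T_pow_period (k := k) c hc hR]
      exact congrFun (LinearMap.mem_ker.mp ha.2) _
    subst hm
    rw [zpow_mul, zpow_natCast]
    have hnat : ∀ i : ℕ, c ((T ^ MulAction.period T y) ^ i) y = 0 := by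
      intro i
      induction i with
      | zero => simpa using hc.one y
      | succ i ih => rw [pow_succ, hc, hp, ih, h0, add_zero]
    obtain ⟨i, rfl | rfl⟩ := Int.eq_nat_or_neg m
    · rw [zpow_natCast]; exact hnat i
    · rw [zpow_neg, zpow_natCast, hc.inv]
      have : ((T ^ MulAction.period T y) ^ i)⁻¹ • y = y := by
        rw [inv_smul_eq_iff, ← pow_mul]
        exact (MulAction.pow_smul_eq_iff_period_dvd.mpr (dvd_mul_right _ i)).symm
      rw [this, hnat, neg_zero]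
  · exact (ha.1 y).2 hfix
  · exact hR y
  · rw [pow_two, hc, hR, hR, add_zero]

end

end Fermat.Agent.Grp
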