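import Mathlib
import Fermat.Prelude.Def_ModularCurve_GenusNumerics
import Fermat.Agent.Grp.Defs
import Fermat.Agent.Grp.HomCl

/-!
# Coset combinatorics of `Γ₀(N)` and `Hom_cl`: main results

Index, elliptic points, cusps, the classification of elements of small trace and the bases of
`Hom_cl(Γ₀(N), ·)`, in the form used for `X₀(N)` and its periods.
-/

namespace Fermat.Agent.Grp

open scoped MatrixGroups
open CongruenceSubgroup ModularGroup

/-! ### The coset space `SL(2,ℤ) ⧸ Γ₀(N)` -/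

/-- The index of `Γ₀(N)`. -/
theorem index_Gamma0 (N : ℕ) [NeZero N] : (Gamma0 N).index = ModularCurve.dedekindPsi N :=
  index_Gamma0_eq N

/-- The number of elliptic points of order two. -/
theorem natCard_fixed_S (N : ℕ) :
    Nat.card {x : SL(2, ℤ) ⧸ Gamma0 N // S • x = x} = ModularCurve.nuTwo N :=
  natCard_fixed_S_eq N

/-- The number of elliptic points of order three. -/
theorem natCard_fixed_ST (N : ℕ) :
    Nat.card {x : SL(2, ℤ) ⧸ Gamma0 N // (S * T) • x = x} = ModularCurve.nuThree N :=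
  natCard_fixed_R_eq N

/-- The number of cusps. -/
theorem natCard_orbits_T (N : ℕ) [NeZero N] :
    Nat.card (MulAction.orbitRel.Quotient (Subgroup.zpowers T) (SL(2, ℤ) ⧸ Gamma0 N))
      = ModularCurve.cuspCount N :=
  natCard_cuspOrbit N

/-! ### Classification of elements with `|trace| ≤ 2` -/

theorem exists_conj_of_abs_tr_le_two (γ : SL(2, ℤ)) (h : |tr γ| ≤ 2) :
    ∃ (g e : SL(2, ℤ)), (γ = g * e * g⁻¹ ∨ γ = -(g * e * g⁻¹)) ∧
      ((∃ n : ℤ, e = T ^ n) ∨ e = S ∨ e = S * T ∨ e = (S * T) ^ 2) :=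
  isBasicUpToConj_of_abs_tr_le_two γ h

/-! ### `Hom_cl(Γ₀(N), A)` -/

theorem exists_genusFormula_eq (N : ℕ) [NeZero N] :
    ∃ g : ℕ, (g : ℚ) = ModularCurve.genusFormula N ∧ clRank (Gamma0 N) = 2 * g :=
  Gamma0_genus N

/-- A basis for `Hom_cl(Γ₀(N), ·)`, valid for every coefficient group simultaneously. -/
theorem exists_clBasis (N : ℕ) [NeZero N] :
    ∃ (γ : Fin (clRank (Gamma0 N)) → Gamma0 N)
      (e : Fin (clRank (Gamma0 N)) → (Additive (Gamma0 N) →+ ℤ)),
      (∀ i, IsClHom (Gamma0 N) (e i)) ∧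
      (∀ i j, e i (Additive.ofMul (γ j)) = if i = j then 1 else 0) ∧
      ∀ (A : Type*) [AddCommGroup A] (φ : Additive (Gamma0 N) →+ A), IsClHom (Gamma0 N) φ →
        ∀ x, φ x = ∑ i, e i x • φ (Additive.ofMul (γ i)) :=
  clBasis_exists (Gamma0 N) (neg_one_mem_Gamma0 N)

/-- The number of cl homomorphisms to `ℤ/m`. -/
theorem natCard_clHoms_zmod (N : ℕ) [NeZero N] (m : ℕ) :
    Nat.card (clHoms ℤ (Gamma0 N) (ZMod m)) = m ^ clRank (Gamma0 N) :=
  natCard_clHoms_zmod_eq (Gamma0 N) (neg_one_mem_Gamma0 N) m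

/-- The dimension of the complex parabolic homomorphisms. -/
theorem finrank_parabolicHoms_complex (N : ℕ) [NeZero N] :
    Module.finrank ℂ (ModularCurve.Period.parabolicHoms ℂ (Gamma0 N) ℂ) = clRank (Gamma0 N) ∧
      FiniteDimensional ℂ (ModularCurve.Period.parabolicHoms ℂ (Gamma0 N) ℂ) :=
  by
  rw [parabolicHoms_eq N ℂ ℂ]
  obtain ⟨e⟩ := nonempty_clHoms_equiv_pi (Gamma0 N) (neg_one_mem_Gamma0 N) ℂ ℂ
  exact ⟨by rw [e.finrank_eq, Module.finrank_pi, Fintype.card_fin], Module.Finite.equiv e.symm⟩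

end Fermat.Agent.Grp
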